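import Mathlib

/-!
# S15-LIN: the linear algebra of ABS-A, (A4)-(A7) of blueprint v2.  Definitions.

`K` a field, `V` a finite dimensional `K`-vector space, `ρ : Representation K Γ V`, `χ : Γ →* K`.
NO quotient spaces and NO modules over group algebras: a "subquotient" is a pair `Y' ≤ Y` of stable
subspaces of `V`, and statements about `Y / Y'` are written as congruences modulo `Y'`.
-/

set_option autoImplicit false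

namespace Fermat.Agent.S15.Lin

variable {K V Γ : Type*} [Field K] [AddCommGroup V] [Module K V] [Group Γ]

/-- a `Γ`-stable subspace -/
def IsStab (ρ : Representation K Γ V) (Y : Submodule K V) : Prop := ∀ g, ∀ y ∈ Y, ρ g y ∈ Y

/-- `t_g = ρ g + χ g • ρ g⁻¹` -/
def tOp (ρ : Representation K Γ V) (χ : Γ →* K) (g : Γ) : V →ₗ[K] V := ρ g + χ g • ρ g⁻¹

theorem tOp_apply (ρ : Representation K Γ V) (χ : Γ →* K) (g : Γ) (v : V) :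
    tOp ρ χ g v = ρ g v + χ g • ρ g⁻¹ v := rfl

/-- (CH): all `t_g` commute with `Γ`. -/
def CH (ρ : Representation K Γ V) (χ : Γ →* K) : Prop :=
  ∀ g h v, tOp ρ χ g (ρ h v) = ρ h (tOp ρ χ g v)

/-- a "central" operator: commutes with `Γ` and preserves every stable subspace. -/
structure IsCen (ρ : Representation K Γ V) (s : V →ₗ[K] V) : Prop where
  comm : ∀ g v, s (ρ g v) = ρ g (s v)
  stab : ∀ Y, IsStab ρ Y → ∀ y ∈ Y, s y ∈ Y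

/-- an operator which induces a `Γ`-endomorphism of `Y / Y'`. -/
structure IsCenOn (ρ : Representation K Γ V) (Y' Y : Submodule K V) (s : V →ₗ[K] V) : Prop where
  map : ∀ y ∈ Y, s y ∈ Y
  map' : ∀ y ∈ Y', s y ∈ Y'
  comm : ∀ g, ∀ y ∈ Y, s (ρ g y) - ρ g (s y) ∈ Y'

/-- `Y / Y'` is a simple subquotient. -/
structure IsSimp (ρ : Representation K Γ V) (Y' Y : Submodule K V) : Prop where
  stab' : IsStab ρ Y'
  stab : IsStab ρ Y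
  lt : Y' < Y
  simple : ∀ Z, IsStab ρ Z → Y' ≤ Z → Z ≤ Y → Z = Y' ∨ Z = Y

/-- `Γ` acts commutatively on `Y / Y'`. -/
def IsComm (ρ : Representation K Γ V) (Y' Y : Submodule K V) : Prop :=
  ∀ g h, ∀ y ∈ Y, ρ g (ρ h y) - ρ h (ρ g y) ∈ Y'

/-- `{y ∈ Y | ρ g y ≡ c y mod Y'}`: the preimage in `Y` of the `c`-eigenspace of `g` on `Y / Y'`. -/
def eig (ρ : Representation K Γ V) (g : Γ) (c : K) (Y' Y : Submodule K V) : Submodule K V :=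
  Y ⊓ Y'.comap (ρ g - c • LinearMap.id)

theorem mem_eig {ρ : Representation K Γ V} {g : Γ} {c : K} {Y' Y : Submodule K V} {y : V} :
    y ∈ eig ρ g c Y' Y ↔ y ∈ Y ∧ ρ g y - c • y ∈ Y' := Iff.rfl

/-- no simple subquotient between `B` and `Y` is commutative. -/
def NoComm (ρ : Representation K Γ V) (B Y : Submodule K V) : Prop :=
  ∀ Z' Z, IsSimp ρ Z' Z → B ≤ Z' → Z ≤ Y → ¬ IsComm ρ Z' Z

/-- The input of the main theorem (v2, after ABS-B v2: only upper bounds at `p`; `Tl` instead of `u`). -/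
structure LinData (K V Γ : Type*) [Field K] [AddCommGroup V] [Module K V] [Group Γ] where
  ρ : Representation K Γ V
  χ : Γ →* K
  ch : CH ρ χ
  /- at `l` -/
  Vm : Submodule K V
  t_Vm : ∀ g, ∀ v ∈ Vm, tOp ρ χ g v ∈ Vm
  Il : Subgroup Γ
  Il_quot : ∀ σ ∈ Il, ∀ v, ρ σ v - v ∈ Vm
  σ₀ : Γ
  σ₀_mem : σ₀ ∈ Il
  σ₀_ne : χ σ₀ ≠ 1
  φ : Γ
  χ_φ : χ φ = 1
  φ_Vm : ∀ v ∈ Vm, ρ φ v ∈ Vm
  Tl : V →ₗ[K] V
  Tl_comm : ∀ g v, Tl (ρ g v) = ρ g (Tl v)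
  Tl_Vm : ∀ v ∈ Vm, Tl v ∈ Vm
  l : K
  l_ne : l ≠ 1
  es : ∀ v, ρ φ (ρ φ v) - Tl (ρ φ v) + l • v ∈ Vm
  ne1 : ∀ v, Tl v = (1 + l) • v → v = 0
  ne2 : ∀ v, Tl v + (1 + l) • v = 0 → v = 0
  /- at `p` -/
  Ip : Subgroup Γ
  Vw : Submodule K V
  Vw_fix : ∀ σ ∈ Ip, ∀ w ∈ Vw, ρ σ w = w
  Ip_quot : ∀ σ ∈ Ip, ∀ v, ρ σ v - v ∈ Vw
  φp : Γ
  pp : K
  χ_φp : χ φp = pp
  pp_ne : pp ^ 2 ≠ 1
  φp_Vw : ∀ w ∈ Vw, ρ φp (ρ φp w) = pp ^ 2 • w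
  /- global -/
  g₀ : Γ
  ne : ∀ v, tOp ρ χ g₀ v = (1 + χ g₀) • v → v = 0
  mink1 : ∀ Y' Y, IsStab ρ Y' → IsStab ρ Y → Y' ≤ Y → (∀ σ ∈ Ip, ∀ y ∈ Y, ρ σ y - y ∈ Y') →
    (∀ σ ∈ Il, ∀ y ∈ Y, ρ σ y - y ∈ Y') → ∀ g, ∀ y ∈ Y, ρ g y - y ∈ Y'
  minkχ : ∀ Y' Y, IsStab ρ Y' → IsStab ρ Y → Y' ≤ Y → (∀ σ ∈ Ip, ∀ y ∈ Y, ρ σ y - y ∈ Y') →
    (∀ σ ∈ Il, ∀ y ∈ Y, ρ σ y - χ σ • y ∈ Y') → ∀ g, ∀ y ∈ Y, ρ g y - χ g • y ∈ Y'

/-- `s = t_φ - Tl` -/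
def LinData.s (D : LinData K V Γ) : V →ₗ[K] V := tOp D.ρ D.χ D.φ - D.Tl

/-- the unit root operator `u = Tl - (l / (1 - l)) s` (helper38's formula: no Hensel) -/
def LinData.u (D : LinData K V Γ) : V →ₗ[K] V := D.Tl - (D.l / (1 - D.l)) • D.s

/-- `Vb` is the largest stable subspace of `Vm`. -/
structure IsLargest (ρ : Representation K Γ V) (Vm Vb : Submodule K V) : Prop where
  stab : IsStab ρ Vb
  le : Vb ≤ Vm
  max : ∀ Z, IsStab ρ Z → Z ≤ Vm → Z ≤ Vb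

end Fermat.Agent.S15.Lin
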