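import Fermat.Agent.S15.Lin.AtL

/-!
# S15-LIN, file `AtPs`: the structure at `p` (short version, after ABS-B v2): (L5)

`f := t_{φp} ∘ t_{φp} - (pp + 1)²` (central), `g := φp * φp`, `χ g = pp²`.
* (`fp_Vw`) `f` kills `Vw`: `t² = φp² + 2 pp + pp² φp⁻²` and `φp² w = pp² w` (so `pp² φp⁻² w = w`).
* `X := {v | f v ∈ Vb}` is stable and contains `Vb` and `Vw` (no statement about `V^{Ip}` is needed).
* (`quad_p`) `f (φp² y) = φp⁴ y - (pp² + 1) φp² y + pp² y = (g - 1)(g - pp²) y`, in `Vb` for `y ∈ X`.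
* (`L5`) `Vw ⊔ Vb ≤ eig ρ g pp² Vb X`, `two_mul_finrank_eig` (`a = 1`, `b = pp²`, `B = Vb`, `Y = X`),
  `Submodule.finrank_mono`.
-/

set_option autoImplicit false

namespace Fermat.Agent.S15.Lin

open Module (finrank)

variable {K V Γ : Type*} [Field K] [AddCommGroup V] [Module K V] [Group Γ]

/-- `f_p = t_φ ∘ t_φ - (pp + 1)²` -/
def fpOp (ρ : Representation K Γ V) (χ : Γ →* K) (φ : Γ) (pp : K) : V →ₗ[K] V :=
  tOp ρ χ φ ∘ₗ tOp ρ χ φ - ((pp + 1) ^ 2) • LinearMap.id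

variable (D : LinData K V Γ) {Vb : Submodule K V}

theorem LinData.isCen_fpOp : IsCen D.ρ (fpOp D.ρ D.χ D.φp D.pp) := by
  exact ((isCen_tOp D.ch _).comp (isCen_tOp D.ch _)).sub ((isCen_id _).smul _)

/-- `f v = φp² v + pp² φp⁻² v - (pp² + 1) v`. -/
theorem LinData.fpOp_apply (v : V) : fpOp D.ρ D.χ D.φp D.pp v =
    D.ρ D.φp (D.ρ D.φp v) + D.pp ^ 2 • D.ρ D.φp⁻¹ (D.ρ D.φp⁻¹ v) - (D.pp ^ 2 + 1) • v := by
  show tOp D.ρ D.χ D.φp (tOp D.ρ D.χ D.φp v) - ((D.pp + 1) ^ 2) • v = _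
  rw [tOp_apply, tOp_apply, D.χ_φp, map_add, map_add, map_smul, map_smul, rho_apply_inv,
    rho_inv_apply]
  module

theorem LinData.fp_Vw : ∀ w ∈ D.Vw, fpOp D.ρ D.χ D.φp D.pp w = 0 := by
  intro w hw
  have h1 := D.φp_Vw w hw
  have h2 : D.pp ^ 2 • D.ρ D.φp⁻¹ (D.ρ D.φp⁻¹ w) = w := by
    have := congrArg (fun x => D.ρ D.φp⁻¹ (D.ρ D.φp⁻¹ x)) h1
    simp only [rho_inv_apply, map_smul] at this
    exact this.symm
  rw [D.fpOp_apply, h1, h2]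
  module

theorem LinData.AtPs_chi : D.χ (D.φp * D.φp) = D.pp ^ 2 := by
  rw [map_mul, D.χ_φp, sq]

theorem LinData.AtPs_pp_ne : D.pp ≠ 0 := by
  rw [← D.χ_φp]
  exact chi_ne_zero D.χ D.φp

/-- `X = {v | f v ∈ Vb}` -/
def LinData.AtPs_X (Vb : Submodule K V) : Submodule K V := Vb.comap (fpOp D.ρ D.χ D.φp D.pp)

theorem LinData.AtPs_X_stab (hb : IsLargest D.ρ D.Vm Vb) : IsStab D.ρ (D.AtPs_X Vb) :=
  hb.stab.comap D.isCen_fpOp.comm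

theorem LinData.AtPs_le_X (hb : IsLargest D.ρ D.Vm Vb) : Vb ≤ D.AtPs_X Vb :=
  fun v hv => D.isCen_fpOp.stab Vb hb.stab v hv

theorem LinData.AtPs_Vw_le_X : D.Vw ≤ D.AtPs_X Vb := by
  intro w hw
  show fpOp D.ρ D.χ D.φp D.pp w ∈ Vb
  rw [D.fp_Vw w hw]
  exact Vb.zero_mem

theorem LinData.quad_p (hb : IsLargest D.ρ D.Vm Vb) :
    ∀ y ∈ D.AtPs_X Vb, D.ρ (D.φp * D.φp) (D.ρ (D.φp * D.φp) y - D.pp ^ 2 • y) -
      (1 : K) • (D.ρ (D.φp * D.φp) y - D.pp ^ 2 • y) ∈ Vb := by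
  intro y hy
  have h : fpOp D.ρ D.χ D.φp D.pp (D.ρ D.φp (D.ρ D.φp y)) ∈ Vb :=
    D.AtPs_X_stab hb _ _ (D.AtPs_X_stab hb _ _ hy)
  have e : D.ρ (D.φp * D.φp) (D.ρ (D.φp * D.φp) y - D.pp ^ 2 • y) -
      (1 : K) • (D.ρ (D.φp * D.φp) y - D.pp ^ 2 • y) =
      fpOp D.ρ D.χ D.φp D.pp (D.ρ D.φp (D.ρ D.φp y)) := by
    rw [D.fpOp_apply, rho_inv_apply, rho_inv_apply, map_sub, map_smul]
    simp only [rho_mul_apply]
    module
  rw [e]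
  exact h

/-- (L5) -/
theorem LinData.L5 [FiniteDimensional K V] (hb : IsLargest D.ρ D.Vm Vb) :
    2 * finrank K (D.Vw ⊔ Vb : Submodule K V) ≤ finrank K V + finrank K Vb := by
  have hle : D.Vw ⊔ Vb ≤ eig D.ρ (D.φp * D.φp) (D.pp ^ 2) Vb (D.AtPs_X Vb) := by
    refine sup_le ?_ (le_eig hb.stab (D.AtPs_le_X hb) _ _)
    intro w hw
    refine mem_eig.2 ⟨D.AtPs_Vw_le_X hw, ?_⟩
    rw [rho_mul_apply, D.φp_Vw w hw, sub_self]
    exact Vb.zero_mem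
  have h2 := two_mul_finrank_eig D.ch (g₀ := D.φp * D.φp) (a := 1) (b := D.pp ^ 2)
    (by rw [one_mul, D.AtPs_chi]) (fun h => D.pp_ne h.symm) hb.stab (D.AtPs_X_stab hb)
    (D.AtPs_le_X hb) (D.quad_p hb) ((D.noComm_top hb).mono le_rfl le_top)
  have h3 := Submodule.finrank_mono hle
  have h4 := Submodule.finrank_le (D.AtPs_X Vb)
  omega

end Fermat.Agent.S15.Lin
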