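import Fermat.Agent.S15.Lin.FrobU
import Fermat.Agent.S15.Lin.AtPs

/-!
# S15-LIN: the main theorem
-/

set_option autoImplicit false

namespace Fermat.Agent.S15.Lin

open Module (finrank)

variable {K V Γ : Type*} [Field K] [AddCommGroup V] [Module K V] [Group Γ]

/-- the output: (L0)-(L6) -/
structure LinOut (D : LinData K V Γ) (Vb : Submodule K V) : Prop where
  largest : IsLargest D.ρ D.Vm Vb
  t_Vb : ∀ g, ∀ v ∈ Vb, tOp D.ρ D.χ g v ∈ Vb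
  Tl_Vb : ∀ v ∈ Vb, D.Tl v ∈ Vb
  u_Vb : ∀ v ∈ Vb, D.u v ∈ Vb
  u_Vm : ∀ v ∈ D.Vm, D.u v ∈ D.Vm
  u_comm : ∀ g v, D.u (D.ρ g v) = D.ρ g (D.u v)
  L1 : ∀ σ ∈ D.Il, ∀ v ∈ D.Vm, D.ρ σ v - D.χ σ • v ∈ Vb
  L2a : ∀ v, D.ρ D.φ v - D.u v ∈ D.Vm
  L2b : ∀ v ∈ D.Vm, D.u (D.ρ D.φ v) - v ∈ Vb
  L2c : ∀ v, D.u (D.u v) - v ∈ Vb → v ∈ Vb
  L3 : 2 * finrank K D.Vm ≤ finrank K V + finrank K Vb
  L5 : 2 * finrank K (D.Vw ⊔ Vb : Submodule K V) ≤ finrank K V + finrank K Vb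
  L6 : ∀ v, tOp D.ρ D.χ D.g₀ v - (1 + D.χ D.g₀) • v ∈ Vb → v ∈ Vb

/-- THE EXPORT of S15-LIN = (A3)-(A7) of blueprint v2 in the form (L0)-(L6) of report #2316. -/
theorem main [FiniteDimensional K V] (D : LinData K V Γ) : ∃ Vb : Submodule K V, LinOut D Vb := by
  obtain ⟨Vb, hb⟩ := exists_isLargest D.ρ D.Vm
  exact ⟨Vb, hb, D.t_Vb hb, D.Tl_Vb hb, D.u_Vb hb, D.u_Vm, D.u_comm, D.L1 hb, D.phi_sub_u hb,
    D.L2 hb, fun v hv => D.u_sq_reflect hb hv, (D.L3 hb).le, D.L5 hb, fun v hv => D.L6 hb hv⟩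

end Fermat.Agent.S15.Lin
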