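import Fermat.Agent.S15.Lin.Simple

/-!
# S15-LIN, file `A5`: no commutative constituent

`Y / Y'` simple and commutative, `(σ - 1)(σ - χ σ) Y ≤ Y'` for all `σ ∈ Il`.  Then `False`.
All `ρ g - c` induce `Γ`-endomorphisms of `Y / Y'` (`IsComm.isCenOn`), so Schur applies to them.
* `σ ∈ Ip`: `(σ - 1)(σ - 1) v = 0` for all `v` (`Ip_quot`, `Vw_fix`), so `(σ - 1) Y ≤ Y'` (`schur_mul`).
* `σ ∈ Il`: `(σ - 1) Y ≤ Y'` or `(σ - χ σ) Y ≤ Y'` (`schur_mul`).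
* `{σ ∈ Il | (σ - 1) Y ≤ Y'}` and `{σ ∈ Il | (σ - χ σ) Y ≤ Y'}` are closed under products and inverses and cover
  `Il`: one of them is `Il` (`a ∉ A`, `b ∉ B` ⟹ `a b ∉ A ∪ B`).
* `mink1` resp. `minkχ`: `Γ` acts on `Y / Y'` by `1` resp. by `χ`; in both cases `t_g y ≡ (1 + χ g) y`.
* `s := t_{g₀} - (1 + χ g₀)` is central and injective (`ne`), so `s y ∈ Y' → y ∈ Y'` (`mem_of_apply_mem`): `Y ≤ Y'`.
-/

set_option autoImplicit false

namespace Fermat.Agent.S15.Lin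

variable {K V Γ : Type*} [Field K] [AddCommGroup V] [Module K V] [Group Γ]

/-- `Ip` acts trivially on a simple commutative subquotient. -/
theorem a5_Ip (D : LinData K V Γ) {Y' Y : Submodule K V} (hS : IsSimp D.ρ Y' Y)
    (hc : IsComm D.ρ Y' Y) : ∀ σ ∈ D.Ip, ∀ y ∈ Y, D.ρ σ y - y ∈ Y' := by
  intro σ hσ
  have hs := hc.isCenOn hS.stab' hS.stab σ 1
  have h0 : ∀ y ∈ Y, (D.ρ σ - (1 : K) • LinearMap.id : V →ₗ[K] V)
      ((D.ρ σ - (1 : K) • LinearMap.id : V →ₗ[K] V) y) ∈ Y' := by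
    intro y _
    simp only [LinearMap.sub_apply, LinearMap.smul_apply, LinearMap.id_apply, one_smul]
    rw [D.Vw_fix σ hσ _ (D.Ip_quot σ hσ y), sub_self]
    exact Y'.zero_mem
  have h1 : ∀ y ∈ Y, (D.ρ σ - (1 : K) • LinearMap.id : V →ₗ[K] V) y ∈ Y' := by
    rcases hS.schur_mul hs hs h0 with h | h <;> exact h
  intro y hy
  have h2 := h1 y hy
  simpa only [LinearMap.sub_apply, LinearMap.smul_apply, LinearMap.id_apply, one_smul] using h2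

/-- a subgroup covered by two "subgroup-like" predicates satisfies one of them. -/
theorem a5_cover {G : Type*} [Group G] (I : Subgroup G) (P Q : G → Prop)
    (hPm : ∀ a b, P a → P b → P (a * b)) (hPi : ∀ a, P a → P a⁻¹)
    (hQm : ∀ a b, Q a → Q b → Q (a * b)) (hQi : ∀ a, Q a → Q a⁻¹)
    (h : ∀ a ∈ I, P a ∨ Q a) : (∀ a ∈ I, P a) ∨ (∀ a ∈ I, Q a) := by
  by_contra hcon
  rw [not_or] at hcon
  obtain ⟨h1, h2⟩ := hcon
  push Not at h1 h2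
  obtain ⟨a, haI, haP⟩ := h1
  obtain ⟨b, hbI, hbQ⟩ := h2
  have haQ : Q a := (h a haI).resolve_left haP
  have hbP : P b := (h b hbI).resolve_right hbQ
  rcases h (a * b) (I.mul_mem haI hbI) with hab | hab
  · apply haP
    have := hPm _ _ hab (hPi b hbP)
    rwa [mul_inv_cancel_right] at this
  · apply hbQ
    have := hQm _ _ (hQi a haQ) hab
    rwa [inv_mul_cancel_left] at this

/-- `Il` acts on a simple commutative subquotient by `1` or by `χ`. -/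
theorem a5_Il (D : LinData K V Γ) {Y' Y : Submodule K V} (hS : IsSimp D.ρ Y' Y)
    (hc : IsComm D.ρ Y' Y)
    (hq : ∀ σ ∈ D.Il, ∀ y ∈ Y, D.ρ σ (D.ρ σ y - D.χ σ • y) - (D.ρ σ y - D.χ σ • y) ∈ Y') :
    (∀ σ ∈ D.Il, ∀ y ∈ Y, D.ρ σ y - y ∈ Y') ∨ (∀ σ ∈ D.Il, ∀ y ∈ Y, D.ρ σ y - D.χ σ • y ∈ Y') := by
  refine a5_cover D.Il (fun σ => ∀ y ∈ Y, D.ρ σ y - y ∈ Y')
    (fun σ => ∀ y ∈ Y, D.ρ σ y - D.χ σ • y ∈ Y') ?_ ?_ ?_ ?_ ?_
  · intro a b ha hb y hy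
    have h1 : D.ρ a (D.ρ b y - y) ∈ Y' := hS.stab' a _ (hb y hy)
    have h2 := Y'.add_mem h1 (ha y hy)
    have e : D.ρ (a * b) y - y = D.ρ a (D.ρ b y - y) + (D.ρ a y - y) := by
      rw [rho_mul_apply, map_sub]
      abel
    rw [e]
    exact h2
  · intro a ha y hy
    have h1 : D.ρ a⁻¹ (D.ρ a y - y) ∈ Y' := hS.stab' a⁻¹ _ (ha y hy)
    have e : D.ρ a⁻¹ y - y = - D.ρ a⁻¹ (D.ρ a y - y) := by
      rw [map_sub, rho_inv_apply]
      abel
    rw [e]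
    exact Y'.neg_mem h1
  · intro a b ha hb y hy
    have h1 : D.ρ a (D.ρ b y - D.χ b • y) ∈ Y' := hS.stab' a _ (hb y hy)
    have h2 := Y'.add_mem h1 (Y'.smul_mem (D.χ b) (ha y hy))
    have e : D.ρ (a * b) y - D.χ (a * b) • y =
        D.ρ a (D.ρ b y - D.χ b • y) + D.χ b • (D.ρ a y - D.χ a • y) := by
      rw [rho_mul_apply, map_sub, map_smul, map_mul, smul_sub, smul_smul, mul_comm (D.χ b)]
      abel
    rw [e]
    exact h2
  · intro a ha y hy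
    have h1 : D.ρ a⁻¹ (D.ρ a y - D.χ a • y) ∈ Y' := hS.stab' a⁻¹ _ (ha y hy)
    have e : D.ρ a⁻¹ y - D.χ a⁻¹ • y = (-(D.χ a)⁻¹) • D.ρ a⁻¹ (D.ρ a y - D.χ a • y) := by
      rw [map_sub, rho_inv_apply, map_smul, chi_inv, smul_sub, smul_smul, neg_mul,
        inv_mul_cancel₀ (chi_ne_zero D.χ a), neg_smul, neg_smul, one_smul]
      abel
    rw [e]
    exact Y'.smul_mem _ h1
  · intro σ hσ
    have hs := hc.isCenOn hS.stab' hS.stab σ 1
    have ht := hc.isCenOn hS.stab' hS.stab σ (D.χ σ)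
    have h0 : ∀ y ∈ Y, (D.ρ σ - (1 : K) • LinearMap.id : V →ₗ[K] V)
        ((D.ρ σ - (D.χ σ) • LinearMap.id : V →ₗ[K] V) y) ∈ Y' := by
      intro y hy
      simp only [LinearMap.sub_apply, LinearMap.smul_apply, LinearMap.id_apply, one_smul]
      exact hq σ hσ y hy
    rcases hS.schur_mul hs ht h0 with h | h
    · left
      intro y hy
      have h2 := h y hy
      simpa only [LinearMap.sub_apply, LinearMap.smul_apply, LinearMap.id_apply, one_smul] using h2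
    · right
      intro y hy
      have h2 := h y hy
      simpa only [LinearMap.sub_apply, LinearMap.smul_apply, LinearMap.id_apply] using h2

/-- if `Γ` acts by `1` or by `χ` on `Y / Y'` (stable subspaces, `Y' ≤ Y`) then `Y ≤ Y'`. -/
theorem a5_ne [FiniteDimensional K V] (D : LinData K V Γ) {Y' Y : Submodule K V}
    (hY' : IsStab D.ρ Y') (hY : IsStab D.ρ Y)
    (h : (∀ g, ∀ y ∈ Y, D.ρ g y - y ∈ Y') ∨ (∀ g, ∀ y ∈ Y, D.ρ g y - D.χ g • y ∈ Y')) : Y ≤ Y' := by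
  have hcen : IsCen D.ρ (tOp D.ρ D.χ D.g₀ - (1 + D.χ D.g₀) • LinearMap.id) :=
    (isCen_tOp D.ch D.g₀).sub ((isCen_id D.ρ).smul _)
  have hinj : ∀ v, (tOp D.ρ D.χ D.g₀ - (1 + D.χ D.g₀) • LinearMap.id : V →ₗ[K] V) v = 0 →
      v = 0 := by
    intro v hv
    simp only [LinearMap.sub_apply, LinearMap.smul_apply, LinearMap.id_apply] at hv
    exact D.ne v (sub_eq_zero.mp hv)
  intro y hy
  refine mem_of_apply_mem hinj (hcen.stab Y' hY') ?_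
  simp only [LinearMap.sub_apply, LinearMap.smul_apply, LinearMap.id_apply, tOp_apply]
  rcases h with h | h
  · have h1 := Y'.add_mem (h D.g₀ y hy) (Y'.smul_mem (D.χ D.g₀) (h D.g₀⁻¹ y hy))
    have e : D.ρ D.g₀ y + D.χ D.g₀ • D.ρ D.g₀⁻¹ y - (1 + D.χ D.g₀) • y =
        (D.ρ D.g₀ y - y) + D.χ D.g₀ • (D.ρ D.g₀⁻¹ y - y) := by
      rw [add_smul, one_smul, smul_sub]
      abel
    rw [e]
    exact h1
  · have h1 := Y'.add_mem (h D.g₀ y hy) (Y'.smul_mem (D.χ D.g₀) (h D.g₀⁻¹ y hy))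
    have e : D.ρ D.g₀ y + D.χ D.g₀ • D.ρ D.g₀⁻¹ y - (1 + D.χ D.g₀) • y =
        (D.ρ D.g₀ y - D.χ D.g₀ • y) + D.χ D.g₀ • (D.ρ D.g₀⁻¹ y - D.χ D.g₀⁻¹ • y) := by
      rw [add_smul, one_smul, smul_sub, smul_smul, chi_inv,
        mul_inv_cancel₀ (chi_ne_zero D.χ D.g₀), one_smul]
      abel
    rw [e]
    exact h1

/-- (A5) -/
theorem a5 [FiniteDimensional K V] (D : LinData K V Γ) {Y' Y : Submodule K V}
    (hS : IsSimp D.ρ Y' Y)
    (hq : ∀ σ ∈ D.Il, ∀ y ∈ Y, D.ρ σ (D.ρ σ y - D.χ σ • y) - (D.ρ σ y - D.χ σ • y) ∈ Y') :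
    ¬ IsComm D.ρ Y' Y := by
  intro hc
  have hIp := a5_Ip D hS hc
  have hle : Y ≤ Y' := by
    rcases a5_Il D hS hc hq with hIl | hIl
    · exact a5_ne D hS.stab' hS.stab (Or.inl (D.mink1 Y' Y hS.stab' hS.stab hS.lt.le hIp hIl))
    · exact a5_ne D hS.stab' hS.stab (Or.inr (D.minkχ Y' Y hS.stab' hS.stab hS.lt.le hIp hIl))
  exact absurd hS.lt (not_lt_of_ge hle)

end Fermat.Agent.S15.Lin
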