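import Fermat.Agent.S15.Lin.Half

/-!
# S15-LIN, file `HalfAll`: HALF for a subquotient all of whose constituents are non commutative

Induction on `finrank Y` (`B` fixed): if `B = Y` both sides are `eig .. B B = B`.  Otherwise
`exists_isSimp_top` gives `Z`, `B ≤ Z`, `Y / Z` simple; induction hypothesis for `Z`, `half_simple` for `(Z, Y)`,
`finrank_eig_additive` for `a` and for `b`.
-/

set_option autoImplicit false

namespace Fermat.Agent.S15.Lin

open Module (finrank)

variable {K V Γ : Type*} [Field K] [AddCommGroup V] [Module K V] [Group Γ]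
variable {ρ : Representation K Γ V} {χ : Γ →* K}

theorem HalfAll_swap (ρ : Representation K Γ V) (g₀ : Γ) (a b : K) (y : V) :
    ρ g₀ (ρ g₀ y - a • y) - b • (ρ g₀ y - a • y) = ρ g₀ (ρ g₀ y - b • y) - a • (ρ g₀ y - b • y) := by
  simp only [map_sub, map_smul, smul_sub, smul_smul, mul_comm b a]
  abel

theorem half_all [FiniteDimensional K V] (hCH : CH ρ χ) {g₀ : Γ} {a b : K} (hab : a * b = χ g₀)
    (hne : a ≠ b) {B Y : Submodule K V} (hB : IsStab ρ B) (hY : IsStab ρ Y) (hBY : B ≤ Y)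
    (hq : ∀ y ∈ Y, ρ g₀ (ρ g₀ y - b • y) - a • (ρ g₀ y - b • y) ∈ B) (hnc : NoComm ρ B Y) :
    finrank K (eig ρ g₀ a B Y) = finrank K (eig ρ g₀ b B Y) := by
  induction hn : finrank K Y using Nat.strong_induction_on generalizing Y with
  | _ n ih =>
    rcases eq_or_lt_of_le hBY with hE | hlt
    · subst hE
      have h1 : ∀ c : K, eig ρ g₀ c B B = B := fun c =>
        le_antisymm (eig_le ρ g₀ c B B) (le_eig hB le_rfl g₀ c)
      rw [h1, h1]
    · obtain ⟨Z, hS, hBZ⟩ := exists_isSimp_top hB hY hlt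
      have hZY : Z ≤ Y := hS.lt.le
      have hlt' : finrank K Z < n := by
        rw [← hn]
        exact Submodule.finrank_lt_finrank_of_lt hS.lt
      have ihZ := ih (finrank K Z) hlt' hS.stab' hBZ (fun y hy => hq y (hZY hy))
        (hnc.mono le_rfl hZY) rfl
      have hs := half_simple hCH hS hab hne (fun y hy => hBZ (hq y hy)) (hnc Z Y hS hBZ le_rfl)
      have ha := finrank_eig_additive hS.stab' hY hBZ hZY g₀ hne hq
      have hq' : ∀ y ∈ Y, ρ g₀ (ρ g₀ y - a • y) - b • (ρ g₀ y - a • y) ∈ B := by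
        intro y hy
        rw [HalfAll_swap]
        exact hq y hy
      have hb := finrank_eig_additive hS.stab' hY hBZ hZY g₀ hne.symm hq'
      omega

theorem two_mul_finrank_eig [FiniteDimensional K V] (hCH : CH ρ χ) {g₀ : Γ} {a b : K}
    (hab : a * b = χ g₀) (hne : a ≠ b) {B Y : Submodule K V} (hB : IsStab ρ B) (hY : IsStab ρ Y)
    (hBY : B ≤ Y) (hq : ∀ y ∈ Y, ρ g₀ (ρ g₀ y - b • y) - a • (ρ g₀ y - b • y) ∈ B)
    (hnc : NoComm ρ B Y) :
    2 * finrank K (eig ρ g₀ b B Y) = finrank K Y + finrank K B := by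
  have h1 := half_all hCH hab hne hB hY hBY hq hnc
  have h2 := finrank_eig_add hB hY hBY g₀ hne hq
  omega

end Fermat.Agent.S15.Lin
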