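import Fermat.Agent.S15.Lin.GMA
import Fermat.Agent.S15.Lin.A5
import Fermat.Agent.S15.Lin.HalfAll

/-!
# S15-LIN, file `AtL`: the structure at `l`: (L0), (L1), (L3), (L6)
-/

set_option autoImplicit false

namespace Fermat.Agent.S15.Lin

open Module (finrank)

variable {K V Γ : Type*} [Field K] [AddCommGroup V] [Module K V] [Group Γ]

/-- `sSup` of the stable subspaces contained in `Vm` (`isStab_sSup`). -/
theorem exists_isLargest (ρ : Representation K Γ V) (Vm : Submodule K V) :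
    ∃ Vb, IsLargest ρ Vm Vb := by
  refine ⟨sSup {Z | IsStab ρ Z ∧ Z ≤ Vm}, isStab_sSup fun Y hY => hY.1,
    sSup_le fun Y hY => hY.2, fun Z hZ hle => le_sSup ⟨hZ, hle⟩⟩

/-- (★): the range of an operator commuting with `Γ` with values in `Vm` is stable, so it is `≤ Vb`. -/
theorem star {ρ : Representation K Γ V} {Vm Vb : Submodule K V} (hb : IsLargest ρ Vm Vb)
    {f : V →ₗ[K] V} (hf : ∀ g v, f (ρ g v) = ρ g (f v)) (h : ∀ v, f v ∈ Vm) (v : V) : f v ∈ Vb := by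
  have hle : (⊤ : Submodule K V).map f ≤ Vb := by
    refine hb.max _ ((isStab_top ρ).map hf) ?_
    rintro _ ⟨w, -, rfl⟩
    exact h w
  exact hle ⟨v, Submodule.mem_top, rfl⟩

/-- an operator commuting with `Γ` and preserving `Vm` preserves `Vb` (`Vb.map f` is stable and `≤ Vm`). -/
theorem IsLargest.map_mem {ρ : Representation K Γ V} {Vm Vb : Submodule K V}
    (hb : IsLargest ρ Vm Vb) {f : V →ₗ[K] V} (hf : ∀ g v, f (ρ g v) = ρ g (f v))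
    (h : ∀ v ∈ Vm, f v ∈ Vm) : ∀ v ∈ Vb, f v ∈ Vb := by
  have hle : Vb.map f ≤ Vb := by
    refine hb.max _ (hb.stab.map hf) ?_
    rintro _ ⟨w, hw, rfl⟩
    exact h w (hb.le hw)
  exact fun v hv => hle ⟨v, hv, rfl⟩

variable (D : LinData K V Γ) {Vb : Submodule K V}

/-- `σ ∈ Il` preserves `Vm` (`Il_quot`). -/
theorem LinData.Il_Vm : ∀ σ ∈ D.Il, ∀ v ∈ D.Vm, D.ρ σ v ∈ D.Vm := by
  intro σ hσ v hv
  have h := D.Vm.add_mem (D.Il_quot σ hσ v) hv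
  rwa [sub_add_cancel] at h

/-- GMA applies to `g₀ = σ ∈ Il`, `χ σ ≠ 1`, `a = id`. -/
theorem LinData.gmaHyp_Il (hb : IsLargest D.ρ D.Vm Vb) {σ : Γ} (hσ : σ ∈ D.Il) (h1 : D.χ σ ≠ 1) :
    GMAHyp D.ρ D.χ D.Vm Vb σ LinearMap.id := by
  refine ⟨D.ch, hb, D.t_Vm, fun _ _ => rfl, fun _ hv => hv, D.Il_Vm σ hσ, D.Il_quot σ hσ, ?_⟩
  intro v hv
  have hne : 1 - D.χ σ ≠ 0 := sub_ne_zero.2 h1.symm
  have h2 : (1 - D.χ σ) • v ∈ Vb := by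
    rw [sub_smul, one_smul]
    exact hv
  have h3 := Vb.smul_mem (1 - D.χ σ)⁻¹ h2
  rwa [smul_smul, inv_mul_cancel₀ hne, one_smul] at h3

/-- (L1).  `χ σ ≠ 1`: `gma_Vm`.  `χ σ = 1`: `σ = σ₀ * (σ₀⁻¹ * σ)`, both factors have `χ ≠ 1`. -/
theorem LinData.L1 [FiniteDimensional K V] (hb : IsLargest D.ρ D.Vm Vb) :
    ∀ σ ∈ D.Il, ∀ v ∈ D.Vm, D.ρ σ v - D.χ σ • v ∈ Vb := by
  have hgood : ∀ σ ∈ D.Il, D.χ σ ≠ 1 → ∀ v ∈ D.Vm, D.ρ σ v - D.χ σ • v ∈ Vb :=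
    fun σ hσ h1 v hv => gma_Vm (D.gmaHyp_Il hb hσ h1) hv
  intro σ hσ v hv
  by_cases h1 : D.χ σ = 1
  · have hτ : D.σ₀⁻¹ * σ ∈ D.Il := D.Il.mul_mem (D.Il.inv_mem D.σ₀_mem) hσ
    have hχτ : D.χ (D.σ₀⁻¹ * σ) = (D.χ D.σ₀)⁻¹ := by
      rw [map_mul, h1, mul_one, chi_inv]
    have hχτ1 : D.χ (D.σ₀⁻¹ * σ) ≠ 1 := by
      rw [hχτ]
      intro h
      exact D.σ₀_ne (inv_eq_one.1 h)
    have e1 := hb.stab D.σ₀ _ (hgood _ hτ hχτ1 v hv)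
    have e2 := Vb.smul_mem (D.χ (D.σ₀⁻¹ * σ)) (hgood _ D.σ₀_mem D.σ₀_ne v hv)
    have e3 := Vb.add_mem e1 e2
    have hσeq : D.ρ σ v = D.ρ D.σ₀ (D.ρ (D.σ₀⁻¹ * σ) v) := by
      rw [← rho_mul_apply, mul_inv_cancel_left]
    have e4 : D.ρ D.σ₀ (D.ρ (D.σ₀⁻¹ * σ) v - D.χ (D.σ₀⁻¹ * σ) • v) +
        D.χ (D.σ₀⁻¹ * σ) • (D.ρ D.σ₀ v - D.χ D.σ₀ • v) = D.ρ σ v - D.χ σ • v := by
      rw [map_sub, map_smul, ← hσeq, smul_sub, smul_smul, hχτ,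
        inv_mul_cancel₀ (chi_ne_zero D.χ D.σ₀), h1]
      abel
    rwa [e4] at e3
  · exact hgood σ hσ h1 v hv

/-- `(σ - 1)(σ - χ σ) V ≤ Vb` for all `σ ∈ Il`: `(σ - 1) v ∈ Vm` and (L1); the two factors commute. -/
theorem LinData.quad_Il [FiniteDimensional K V] (hb : IsLargest D.ρ D.Vm Vb) :
    ∀ σ ∈ D.Il, ∀ v, D.ρ σ (D.ρ σ v - D.χ σ • v) - (D.ρ σ v - D.χ σ • v) ∈ Vb := by
  intro σ hσ v
  have h := D.L1 hb σ hσ _ (D.Il_quot σ hσ v)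
  have e : D.ρ σ (D.ρ σ v - v) - D.χ σ • (D.ρ σ v - v) =
      D.ρ σ (D.ρ σ v - D.χ σ • v) - (D.ρ σ v - D.χ σ • v) := by
    rw [map_sub, map_sub, map_smul, smul_sub]
    abel
  rwa [e] at h

/-- `Vm = E_{χ σ₀}(σ₀)` relative to `Vb` (`L1`, `gma_conv`). -/
theorem LinData.Vm_eq [FiniteDimensional K V] (hb : IsLargest D.ρ D.Vm Vb) :
    D.Vm = eig D.ρ D.σ₀ (D.χ D.σ₀) Vb ⊤ := by
  apply le_antisymm
  · intro v hv
    exact mem_eig.2 ⟨Submodule.mem_top, D.L1 hb _ D.σ₀_mem v hv⟩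
  · intro v hv
    exact gma_conv (D.gmaHyp_Il hb D.σ₀_mem D.σ₀_ne) (mem_eig.1 hv).2

/-- no commutative constituent above `Vb` (`a5`, `quad_Il`). -/
theorem LinData.noComm_top [FiniteDimensional K V] (hb : IsLargest D.ρ D.Vm Vb) :
    NoComm D.ρ Vb ⊤ := by
  intro Z' Z hS hle _
  exact a5 D hS fun σ hσ y _ => hle (D.quad_Il hb σ hσ y)

/-- (L3): `two_mul_finrank_eig` with `g₀ = σ₀`, `a = 1`, `b = χ σ₀`, `B = Vb`, `Y = ⊤`. -/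
theorem LinData.L3 [FiniteDimensional K V] (hb : IsLargest D.ρ D.Vm Vb) :
    2 * finrank K D.Vm = finrank K V + finrank K Vb := by
  have h := two_mul_finrank_eig D.ch (g₀ := D.σ₀) (a := 1) (b := D.χ D.σ₀) (one_mul _)
    D.σ₀_ne.symm hb.stab (isStab_top D.ρ) le_top
    (fun y _ => by
      rw [one_smul]
      exact D.quad_Il hb _ D.σ₀_mem y)
    (D.noComm_top hb)
  rw [← D.Vm_eq hb, finrank_top] at h
  exact h

/-- (L6): `t_{g₀} - (1 + χ g₀)` is central and injective (`ne`): `mem_of_apply_mem`. -/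
theorem LinData.L6 [FiniteDimensional K V] (hb : IsLargest D.ρ D.Vm Vb) {v : V}
    (h : tOp D.ρ D.χ D.g₀ v - (1 + D.χ D.g₀) • v ∈ Vb) : v ∈ Vb := by
  have hcen : IsCen D.ρ (tOp D.ρ D.χ D.g₀ - (1 + D.χ D.g₀) • LinearMap.id) :=
    (isCen_tOp D.ch D.g₀).sub ((isCen_id D.ρ).smul _)
  refine mem_of_apply_mem (s := tOp D.ρ D.χ D.g₀ - (1 + D.χ D.g₀) • LinearMap.id) ?_
    (hcen.stab Vb hb.stab) h
  intro w hw
  apply D.ne
  rw [LinearMap.sub_apply, LinearMap.smul_apply, LinearMap.id_apply, sub_eq_zero] at hw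
  exact hw

end Fermat.Agent.S15.Lin
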