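import Fermat.Agent.S15.Lin.Defs

/-!
# S15-LIN, file `Basic`: stable subspaces, central operators
-/

set_option autoImplicit false

namespace Fermat.Agent.S15.Lin

variable {K V Γ : Type*} [Field K] [AddCommGroup V] [Module K V] [Group Γ]
variable {ρ : Representation K Γ V} {χ : Γ →* K}

theorem rho_inv_apply (ρ : Representation K Γ V) (g : Γ) (v : V) : ρ g⁻¹ (ρ g v) = v := by
  rw [← Module.End.mul_apply, ← map_mul, inv_mul_cancel, map_one, Module.End.one_apply]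

theorem rho_apply_inv (ρ : Representation K Γ V) (g : Γ) (v : V) : ρ g (ρ g⁻¹ v) = v := by
  rw [← Module.End.mul_apply, ← map_mul, mul_inv_cancel, map_one, Module.End.one_apply]

theorem rho_mul_apply (ρ : Representation K Γ V) (g h : Γ) (v : V) : ρ (g * h) v = ρ g (ρ h v) := by
  rw [map_mul, Module.End.mul_apply]

theorem chi_ne_zero (χ : Γ →* K) (g : Γ) : χ g ≠ 0 := by
  intro h
  have h1 : χ g * χ g⁻¹ = 1 := by rw [← map_mul, mul_inv_cancel, map_one]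
  rw [h, zero_mul] at h1
  exact zero_ne_one h1

theorem chi_inv (χ : Γ →* K) (g : Γ) : χ g⁻¹ = (χ g)⁻¹ := by
  have h1 : χ g * χ g⁻¹ = 1 := by rw [← map_mul, mul_inv_cancel, map_one]
  exact eq_inv_of_mul_eq_one_right h1

theorem isStab_bot (ρ : Representation K Γ V) : IsStab ρ ⊥ := by
  intro g y hy
  rw [Submodule.mem_bot] at hy ⊢
  rw [hy, map_zero]

theorem isStab_top (ρ : Representation K Γ V) : IsStab ρ ⊤ := by
  intro g y _
  exact Submodule.mem_top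

theorem IsStab.inf {Y Z : Submodule K V} (hY : IsStab ρ Y) (hZ : IsStab ρ Z) : IsStab ρ (Y ⊓ Z) := by
  intro g y hy
  exact ⟨hY g y hy.1, hZ g y hy.2⟩

theorem IsStab.sup {Y Z : Submodule K V} (hY : IsStab ρ Y) (hZ : IsStab ρ Z) : IsStab ρ (Y ⊔ Z) := by
  intro g y hy
  obtain ⟨a, ha, b, hb, rfl⟩ := Submodule.mem_sup.1 hy
  rw [map_add]
  exact Submodule.add_mem_sup (hY g a ha) (hZ g b hb)

theorem isStab_sSup {S : Set (Submodule K V)} (h : ∀ Y ∈ S, IsStab ρ Y) : IsStab ρ (sSup S) := by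
  intro g
  have : sSup S ≤ (sSup S).comap (ρ g) := by
    apply sSup_le
    intro Y hY y hy
    exact (le_sSup hY : Y ≤ sSup S) (h Y hY g y hy)
  exact fun y hy => this hy

/-- `ρ g y ∈ Y ↔ y ∈ Y`. -/
theorem IsStab.mem_iff {Y : Submodule K V} (hY : IsStab ρ Y) (g : Γ) (y : V) :
    ρ g y ∈ Y ↔ y ∈ Y := by
  constructor
  · intro h
    have := hY g⁻¹ _ h
    rwa [rho_inv_apply] at this
  · exact hY g y

/-- the image of a stable subspace under an operator commuting with `Γ` is stable. -/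
theorem IsStab.map {Y : Submodule K V} (hY : IsStab ρ Y) {s : V →ₗ[K] V}
    (hs : ∀ g v, s (ρ g v) = ρ g (s v)) : IsStab ρ (Y.map s) := by
  rintro g _ ⟨y, hy, rfl⟩
  exact ⟨ρ g y, hY g y hy, hs g y⟩

theorem IsStab.comap {Y : Submodule K V} (hY : IsStab ρ Y) {s : V →ₗ[K] V}
    (hs : ∀ g v, s (ρ g v) = ρ g (s v)) : IsStab ρ (Y.comap s) := by
  intro g y hy
  show s (ρ g y) ∈ Y
  rw [hs]
  exact hY g _ hy

/-- the `Γ`-span of a subspace. -/
theorem exists_span (ρ : Representation K Γ V) (X : Submodule K V) :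
    ∃ Z : Submodule K V, IsStab ρ Z ∧ X ≤ Z ∧
      ∀ Z' : Submodule K V, (∀ g, ∀ x ∈ X, ρ g x ∈ Z') → Z ≤ Z' := by
  refine ⟨⨆ g : Γ, X.map (ρ g), ?_, ?_, ?_⟩
  · intro g
    have : (⨆ g : Γ, X.map (ρ g)) ≤ (⨆ g : Γ, X.map (ρ g)).comap (ρ g) := by
      apply iSup_le
      rintro h _ ⟨x, hx, rfl⟩
      show ρ g (ρ h x) ∈ (⨆ g : Γ, X.map (ρ g))
      rw [← rho_mul_apply]
      exact (le_iSup (fun g : Γ => X.map (ρ g)) (g * h)) ⟨x, hx, rfl⟩
    exact fun y hy => this hy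
  · intro x hx
    refine (le_iSup (fun g : Γ => X.map (ρ g)) 1) ⟨x, hx, ?_⟩
    rw [map_one, Module.End.one_apply]
  · intro Z' h
    apply iSup_le
    rintro g _ ⟨x, hx, rfl⟩
    exact h g x hx

theorem isCen_id (ρ : Representation K Γ V) : IsCen ρ LinearMap.id := by
  exact ⟨fun _ _ => rfl, fun _ _ _ hy => hy⟩

theorem IsCen.add {s t : V →ₗ[K] V} (hs : IsCen ρ s) (ht : IsCen ρ t) : IsCen ρ (s + t) := by
  refine ⟨fun g v => ?_, fun Y hY y hy => Y.add_mem (hs.stab Y hY y hy) (ht.stab Y hY y hy)⟩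
  rw [LinearMap.add_apply, LinearMap.add_apply, hs.comm, ht.comm, map_add]

theorem IsCen.sub {s t : V →ₗ[K] V} (hs : IsCen ρ s) (ht : IsCen ρ t) : IsCen ρ (s - t) := by
  refine ⟨fun g v => ?_, fun Y hY y hy => Y.sub_mem (hs.stab Y hY y hy) (ht.stab Y hY y hy)⟩
  rw [LinearMap.sub_apply, LinearMap.sub_apply, hs.comm, ht.comm, map_sub]

theorem IsCen.smul {s : V →ₗ[K] V} (hs : IsCen ρ s) (c : K) : IsCen ρ (c • s) := by
  refine ⟨fun g v => ?_, fun Y hY y hy => Y.smul_mem c (hs.stab Y hY y hy)⟩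
  rw [LinearMap.smul_apply, LinearMap.smul_apply, hs.comm, map_smul]

theorem IsCen.comp {s t : V →ₗ[K] V} (hs : IsCen ρ s) (ht : IsCen ρ t) : IsCen ρ (s ∘ₗ t) := by
  refine ⟨fun g v => ?_, fun Y hY y hy => hs.stab Y hY _ (ht.stab Y hY y hy)⟩
  rw [LinearMap.comp_apply, LinearMap.comp_apply, ht.comm, hs.comm]

theorem IsCen.pow {s : V →ₗ[K] V} (hs : IsCen ρ s) (n : ℕ) : IsCen ρ (s ^ n) := by
  induction n with
  | zero => exact isCen_id ρ
  | succ n ih =>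
    rw [pow_succ]
    exact ih.comp hs

theorem isCen_tOp (h : CH ρ χ) (g : Γ) : IsCen ρ (tOp ρ χ g) := by
  refine ⟨fun k v => h g k v, fun Y hY y hy => ?_⟩
  rw [tOp_apply]
  exact Y.add_mem (hY g y hy) (Y.smul_mem _ (hY g⁻¹ y hy))

theorem IsCen.isCenOn {s : V →ₗ[K] V} (hs : IsCen ρ s) {Y' Y : Submodule K V}
    (hY' : IsStab ρ Y') (hY : IsStab ρ Y) : IsCenOn ρ Y' Y s := by
  refine ⟨hs.stab Y hY, hs.stab Y' hY', fun g y _ => ?_⟩
  rw [hs.comm, sub_self]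
  exact Y'.zero_mem

/-- `ρ g ^ 2 - t_g ρ g + χ g = 0`. -/
theorem quad (ρ : Representation K Γ V) (χ : Γ →* K) (g : Γ) (v : V) :
    ρ g (ρ g v) - tOp ρ χ g (ρ g v) + χ g • v = 0 := by
  rw [tOp_apply, rho_inv_apply]
  abel

/-- an injective operator preserving a finite dimensional subspace reflects membership. -/
theorem mem_of_apply_mem [FiniteDimensional K V] {s : V →ₗ[K] V} (hs : ∀ v, s v = 0 → v = 0)
    {Y : Submodule K V} (hY : ∀ y ∈ Y, s y ∈ Y) {v : V} (hv : s v ∈ Y) : v ∈ Y := by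
  have hinj : Function.Injective s := (injective_iff_map_eq_zero s).2 hs
  have hle : Y.map s ≤ Y := by
    rintro _ ⟨y, hy, rfl⟩
    exact hY y hy
  have hfr : Module.finrank K (Y.map s) = Module.finrank K Y :=
    (Submodule.equivMapOfInjective s hinj Y).finrank_eq.symm
  have heq : Y.map s = Y := Submodule.eq_of_le_of_finrank_eq hle hfr
  rw [← heq] at hv
  obtain ⟨y, hy, hyv⟩ := hv
  rw [← hinj hyv]
  exact hy

/-- congruences: if `ρ g y ≡ c y mod Y'` on `Y` then `c ρ g⁻¹ y ≡ y`. -/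
theorem smul_inv_sub_mem {Y' Y : Submodule K V} (hY' : IsStab ρ Y') (hY : IsStab ρ Y) {g : Γ} {c : K}
    {y : V} (hy : y ∈ Y) (h : ρ g y - c • y ∈ Y') : c • ρ g⁻¹ y - y ∈ Y' := by
  have h1 := hY' g⁻¹ _ h
  rw [map_sub, map_smul, rho_inv_apply] at h1
  have h2 := Y'.neg_mem h1
  rwa [neg_sub] at h2

end Fermat.Agent.S15.Lin
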