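import Fermat.Agent.S15.Lin.Basic

/-!
# S15-LIN, file `Dim`: dimension counts
-/

set_option autoImplicit false

namespace Fermat.Agent.S15.Lin

open Module (finrank)

variable {K V Γ : Type*} [Field K] [AddCommGroup V] [Module K V] [Group Γ]
variable {ρ : Representation K Γ V} {χ : Γ →* K}

/-- rank-nullity on a subspace (helper, same as `finrank_map_add_ker`). -/
theorem Dim_map_add_ker [FiniteDimensional K V] (F : V →ₗ[K] V) (Y : Submodule K V) :
    finrank K (Y.map F) + finrank K (Y ⊓ LinearMap.ker F : Submodule K V) = finrank K Y := by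
  have h := LinearMap.finrank_range_add_finrank_ker (F.domRestrict Y)
  rw [LinearMap.range_domRestrict, LinearMap.ker_domRestrict] at h
  have e : (LinearMap.ker F).comap Y.subtype = (Y ⊓ LinearMap.ker F).comap Y.subtype := by
    ext x
    simp
  rw [e, (Submodule.comapSubtypeEquivOfLe (inf_le_left : Y ⊓ LinearMap.ker F ≤ Y)).finrank_eq] at h
  exact h

theorem Dim_swap (ρ : Representation K Γ V) (g₀ : Γ) (a b : K) (y : V) :
    ρ g₀ (ρ g₀ y - a • y) - b • (ρ g₀ y - a • y) = ρ g₀ (ρ g₀ y - b • y) - a • (ρ g₀ y - b • y) := by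
  simp only [map_sub, map_smul, smul_sub, smul_smul, mul_comm b a]
  abel

theorem Dim_decomp (ρ : Representation K Γ V) (g : Γ) {a b : K} (hab : a ≠ b) (y : V) :
    y = (a - b)⁻¹ • (ρ g y - b • y) - (a - b)⁻¹ • (ρ g y - a • y) := by
  have h : a - b ≠ 0 := sub_ne_zero.2 hab
  have e : (a - b)⁻¹ • (ρ g y - b • y) - (a - b)⁻¹ • (ρ g y - a • y) =
      ((a - b)⁻¹ * (a - b)) • y := by
    module
  rw [e, inv_mul_cancel₀ h, one_smul]

/-- `F` induces an injection `A / A' → B / B'`.  (The composite `A → B → B ⧸ B'` has kernel `≤ A'`;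
or: choose a complement; or `Submodule.finrank_map_le`, rank-nullity for `F.domRestrict A`:
`finrank A = finrank (A ⊓ B'.comap F) + finrank ((A.map F ⊔ B') / B')`.) -/
theorem finrank_rel_le [FiniteDimensional K V] (F : V →ₗ[K] V) {A' A B' B : Submodule K V}
    (hB : B' ≤ B) (hF : ∀ a ∈ A, F a ∈ B) (hinj : ∀ a ∈ A, F a ∈ B' → a ∈ A') :
    finrank K A + finrank K B' ≤ finrank K B + finrank K A' := by
  have hA0 : A ⊓ B'.comap F ≤ A' := fun a ha => hinj a ha.1 ha.2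
  have h0 : finrank K (A ⊓ B'.comap F : Submodule K V) ≤ finrank K A' :=
    Submodule.finrank_mono hA0
  have h1 := Dim_map_add_ker F A
  have h2 := Dim_map_add_ker F (A ⊓ B'.comap F)
  have e1 : (A ⊓ B'.comap F) ⊓ LinearMap.ker F = A ⊓ LinearMap.ker F := by
    ext x
    simp only [Submodule.mem_inf, Submodule.mem_comap, LinearMap.mem_ker]
    constructor
    · rintro ⟨⟨h, -⟩, h'⟩
      exact ⟨h, h'⟩
    · rintro ⟨h, h'⟩
      exact ⟨⟨h, by rw [h']; exact B'.zero_mem⟩, h'⟩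
  rw [e1] at h2
  have e2 : A.map F ⊓ B' = (A ⊓ B'.comap F).map F := by
    ext x
    constructor
    · rintro ⟨⟨a, ha, rfl⟩, hx⟩
      exact ⟨a, ⟨ha, hx⟩, rfl⟩
    · rintro ⟨a, ⟨ha, hx⟩, rfl⟩
      exact ⟨⟨a, ha, rfl⟩, hx⟩
  have h3 := Submodule.finrank_sup_add_finrank_inf_eq (A.map F) B'
  rw [e2] at h3
  have h4 : finrank K (A.map F ⊔ B' : Submodule K V) ≤ finrank K B := by
    apply Submodule.finrank_mono
    refine sup_le ?_ hB
    rintro _ ⟨a, ha, rfl⟩
    exact hF a ha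
  omega

/-- rank-nullity on a subspace. -/
theorem finrank_map_add_ker [FiniteDimensional K V] (F : V →ₗ[K] V) (Y : Submodule K V) :
    finrank K (Y.map F) + finrank K (Y ⊓ LinearMap.ker F : Submodule K V) = finrank K Y := by
  exact Dim_map_add_ker F Y

theorem eig_le (ρ : Representation K Γ V) (g : Γ) (c : K) (Y' Y : Submodule K V) :
    eig ρ g c Y' Y ≤ Y := by
  exact inf_le_left

theorem le_eig {Y' Y : Submodule K V} (hY' : IsStab ρ Y') (h : Y' ≤ Y) (g : Γ) (c : K) :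
    Y' ≤ eig ρ g c Y' Y := by
  intro y hy
  exact mem_eig.2 ⟨h hy, Y'.sub_mem (hY' g y hy) (Y'.smul_mem c hy)⟩

/-- `E_a ⊓ E_b = B`. -/
theorem eig_inf_eig {B Y : Submodule K V} (hB : IsStab ρ B) (hBY : B ≤ Y) (g : Γ) {a b : K}
    (hab : a ≠ b) : eig ρ g a B Y ⊓ eig ρ g b B Y = B := by
  apply le_antisymm
  · rintro y ⟨h1, h2⟩
    rw [Dim_decomp ρ g hab y]
    exact B.sub_mem (B.smul_mem _ (mem_eig.1 h2).2) (B.smul_mem _ (mem_eig.1 h1).2)
  · exact le_inf (le_eig hB hBY g a) (le_eig hB hBY g b)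

/-- `E_a ⊔ E_b = Y`: `(a - b) y = (ρ g y - b y) - (ρ g y - a y)`. -/
theorem eig_sup_eig {B Y : Submodule K V} (hY : IsStab ρ Y) (g : Γ) {a b : K} (hab : a ≠ b)
    (hq : ∀ y ∈ Y, ρ g (ρ g y - b • y) - a • (ρ g y - b • y) ∈ B) :
    eig ρ g a B Y ⊔ eig ρ g b B Y = Y := by
  apply le_antisymm (sup_le (eig_le ρ g a B Y) (eig_le ρ g b B Y))
  intro y hy
  rw [Dim_decomp ρ g hab y, sub_eq_add_neg]
  have hgy : ρ g y ∈ Y := hY g y hy
  refine Submodule.add_mem_sup (Submodule.smul_mem _ _ ?_)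
    (Submodule.neg_mem _ (Submodule.smul_mem _ _ ?_))
  · exact mem_eig.2 ⟨Y.sub_mem hgy (Y.smul_mem b hy), hq y hy⟩
  · refine mem_eig.2 ⟨Y.sub_mem hgy (Y.smul_mem a hy), ?_⟩
    rw [Dim_swap]
    exact hq y hy

theorem finrank_eig_add [FiniteDimensional K V] {B Y : Submodule K V} (hB : IsStab ρ B)
    (hY : IsStab ρ Y) (hBY : B ≤ Y) (g : Γ) {a b : K} (hab : a ≠ b)
    (hq : ∀ y ∈ Y, ρ g (ρ g y - b • y) - a • (ρ g y - b • y) ∈ B) :
    finrank K (eig ρ g a B Y) + finrank K (eig ρ g b B Y) = finrank K Y + finrank K B := by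
  have h := Submodule.finrank_sup_add_finrank_inf_eq (eig ρ g a B Y) (eig ρ g b B Y)
  rw [eig_sup_eig hY g hab hq, eig_inf_eig hB hBY g hab] at h
  exact h.symm

/-- ADDITIVITY of the eigenspace dimension in `B ≤ Z ≤ Y`:
`E_a(B,Y) ⊓ Z = E_a(B,Z)` and `E_a(B,Y) ⊔ Z = E_a(Z,Y)`
(for `⊇`: `(a - b) y = (ρ g y - b y) - (ρ g y - a y)`, the first term is in `E_a(B,Y)`, the second in `Z`),
then `Submodule.finrank_sup_add_finrank_inf_eq`. -/
theorem finrank_eig_additive [FiniteDimensional K V] {B Z Y : Submodule K V}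
    (hZ : IsStab ρ Z) (hY : IsStab ρ Y) (hBZ : B ≤ Z) (hZY : Z ≤ Y) (g : Γ) {a b : K}
    (hab : a ≠ b) (hq : ∀ y ∈ Y, ρ g (ρ g y - b • y) - a • (ρ g y - b • y) ∈ B) :
    finrank K (eig ρ g a B Y) + finrank K Z =
      finrank K (eig ρ g a B Z) + finrank K (eig ρ g a Z Y) := by
  have e1 : eig ρ g a B Y ⊓ Z = eig ρ g a B Z := by
    ext y
    constructor
    · rintro ⟨h1, h2⟩
      exact mem_eig.2 ⟨h2, (mem_eig.1 h1).2⟩
    · intro h
      exact ⟨mem_eig.2 ⟨hZY (mem_eig.1 h).1, (mem_eig.1 h).2⟩, (mem_eig.1 h).1⟩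
  have e2 : eig ρ g a B Y ⊔ Z = eig ρ g a Z Y := by
    apply le_antisymm
    · refine sup_le ?_ (le_eig hZ hZY g a)
      intro y hy
      exact mem_eig.2 ⟨(mem_eig.1 hy).1, hBZ (mem_eig.1 hy).2⟩
    · intro y hy
      have hyY := (mem_eig.1 hy).1
      rw [Dim_decomp ρ g hab y, sub_eq_add_neg]
      refine Submodule.add_mem_sup (Submodule.smul_mem _ _ ?_)
        (Submodule.neg_mem _ (Submodule.smul_mem _ _ (mem_eig.1 hy).2))
      exact mem_eig.2 ⟨Y.sub_mem (hY g y hyY) (Y.smul_mem b hyY), hq y hyY⟩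
  have h := Submodule.finrank_sup_add_finrank_inf_eq (eig ρ g a B Y) Z
  rw [e1, e2] at h
  omega

/-- relative version of `mem_of_apply_mem`: `s` injective modulo `B`, `B ≤ Y`, `s Y ≤ Y`; then `s v ∈ Y → v ∈ Y`.
(`P := Y.comap s ≥ Y`; `finrank_rel_le` with `F = s`, `A = P`, `A' = B' = B`, `B = Y` gives `finrank P ≤ finrank Y`;
`Submodule.eq_of_le_of_finrank_le`.) -/
theorem mem_of_apply_mem_rel [FiniteDimensional K V] {s : V →ₗ[K] V} {B Y : Submodule K V}
    (hBY : B ≤ Y) (hY : ∀ y ∈ Y, s y ∈ Y) (hinj : ∀ v, s v ∈ B → v ∈ B) {v : V} (hv : s v ∈ Y) :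
    v ∈ Y := by
  have hle : Y ≤ Y.comap s := fun y hy => hY y hy
  have h1 : finrank K (Y.comap s) + finrank K B ≤ finrank K Y + finrank K B :=
    finrank_rel_le s hBY (fun a ha => ha) (fun a _ h => hinj a h)
  have h2 : finrank K (Y.comap s) ≤ finrank K Y := by omega
  have h3 : Y = Y.comap s := Submodule.eq_of_le_of_finrank_le hle h2
  rw [h3]
  exact hv

end Fermat.Agent.S15.Lin
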