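import Fermat.Agent.S15.Lin.AtL

/-!
# S15-LIN, file `FrobU`: the unit root operator `u` without Hensel (helper38's FU1-FU4), relative to `Vb`

`φ = D.φ`, `χ φ = 1`, `t = t_φ = φ + φ⁻¹`, `s = t - Tl`, `κ = 1 - l ≠ 0`, `u = Tl - (l / κ) s`.
`Tl`, `t`, `s`, `u` commute with `Γ`, with each other, and preserve `Vm` and `Vb` (`IsLargest.map_mem`).
* (`s_phi`) `r w := s φ w - κ w ∈ Vm`: (CH) `φ² w - t φ w + w = 0` (`quad`, `χ φ = 1`) minus `es`.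
* (`P_mem`) `P := κ² - κ Tl s + l s²` maps `V` into `Vm`:  apply `s s` to `e v := φ² v - Tl φ v + l v ∈ Vm`:
  `s s φ φ v = s φ (s φ v) = κ² v + κ r v + r (s φ v)`, `s s Tl φ v = Tl s (s φ v) = κ Tl s v + Tl s (r v)`; so
  `P v = s s (e v) - κ r v - r (s φ v) + Tl s (r v) ∈ Vm`.  `P` commutes with `Γ`: `P v ∈ Vb` by (★) (`star`).
* (`u_s`) `κ (u s v - κ v) = - P v`, so `u s v - κ v ∈ Vb`.
* (`s_reflect`, `u_reflect`) `s v ∈ Vb ⟹ u s v ∈ Vb ⟹ κ v ∈ Vb`; same for `u` (`s u = u s`).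
* (`phi_sub_u`) `s (φ v - u v) = (s φ v - κ v) - (u s v - κ v) ∈ Vm`; apply `u`: `κ (φ v - u v) ∈ Vm`  (`u_s` at `φ v - u v`).
* (`u_quad`) `s s (u u v - Tl u v + l v) = u s (u s v) - Tl s (u s v) + l s s v ≡ κ² v - κ Tl s v + l s s v = P v ≡ 0 mod Vb`;
  `s_reflect` twice.
* (`u_sq_reflect`) modulo `Vb`: `(u - l)(u - 1) = u² - (1 + l) u + l ≡ (Tl - 1 - l) u`, `(u + l)(u + 1) ≡ (Tl + 1 + l) u`.
  If `(u² - 1) v ∈ Vb`: apply `u - l`: `(Tl - 1 - l) u (u + 1) v ∈ Vb`; `Tl - (1 + l)` is injective (`ne1`) and preserves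
  `Vb`: `mem_of_apply_mem`; `u_reflect`: `(u + 1) v ∈ Vb`; apply `u + l`: `(Tl + 1 + l) u v ∈ Vb`; `ne2`; `u_reflect`.
* (`FrobU_hyp_φ`) the field `inj` of `GMAHyp` is NOT available (`u² - 1` is only injective modulo `Vb`); the GMA steps are
  re-run here with `refl` (`u² - 1` reflects membership in `Vm`, `FrobU_refl`) instead of `inj`; (`L2`) = `FrobU_gma_Vm`.
-/

set_option autoImplicit false

namespace Fermat.Agent.S15.Lin

variable {K V Γ : Type*} [Field K] [AddCommGroup V] [Module K V] [Group Γ]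
variable (D : LinData K V Γ) {Vb : Submodule K V}

theorem LinData.s_apply (v : V) : D.s v = D.ρ D.φ v + D.ρ D.φ⁻¹ v - D.Tl v := by
  show tOp D.ρ D.χ D.φ v - D.Tl v = _
  rw [tOp_apply, D.χ_φ, one_smul]

theorem LinData.u_apply (v : V) : D.u v = D.Tl v - (D.l / (1 - D.l)) • D.s v := by
  rfl

theorem LinData.s_comm (g : Γ) (v : V) : D.s (D.ρ g v) = D.ρ g (D.s v) := by
  show tOp D.ρ D.χ D.φ (D.ρ g v) - D.Tl (D.ρ g v) = D.ρ g (tOp D.ρ D.χ D.φ v - D.Tl v)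
  rw [D.ch, D.Tl_comm, map_sub]

theorem LinData.u_comm (g : Γ) (v : V) : D.u (D.ρ g v) = D.ρ g (D.u v) := by
  rw [D.u_apply, D.u_apply, D.Tl_comm, D.s_comm, map_sub, map_smul]

theorem LinData.Tl_s (v : V) : D.Tl (D.s v) = D.s (D.Tl v) := by
  rw [D.s_apply, D.s_apply, map_sub, map_add, D.Tl_comm, D.Tl_comm]

theorem LinData.u_s_comm (v : V) : D.u (D.s v) = D.s (D.u v) := by
  rw [D.u_apply, D.u_apply, map_sub, map_smul, D.Tl_s]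

theorem LinData.Tl_u (v : V) : D.Tl (D.u v) = D.u (D.Tl v) := by
  rw [D.u_apply, D.u_apply, map_sub, map_smul, D.Tl_s]

theorem LinData.s_Vm : ∀ v ∈ D.Vm, D.s v ∈ D.Vm := by
  intro v hv
  exact D.Vm.sub_mem (D.t_Vm _ v hv) (D.Tl_Vm v hv)

theorem LinData.u_Vm : ∀ v ∈ D.Vm, D.u v ∈ D.Vm := by
  intro v hv
  exact D.Vm.sub_mem (D.Tl_Vm v hv) (D.Vm.smul_mem _ (D.s_Vm v hv))

theorem LinData.t_Vb (hb : IsLargest D.ρ D.Vm Vb) (g : Γ) : ∀ v ∈ Vb, tOp D.ρ D.χ g v ∈ Vb := by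
  exact (isCen_tOp D.ch g).stab Vb hb.stab

theorem LinData.Tl_Vb (hb : IsLargest D.ρ D.Vm Vb) : ∀ v ∈ Vb, D.Tl v ∈ Vb := by
  exact hb.map_mem D.Tl_comm D.Tl_Vm

theorem LinData.s_Vb (hb : IsLargest D.ρ D.Vm Vb) : ∀ v ∈ Vb, D.s v ∈ Vb := by
  exact hb.map_mem D.s_comm D.s_Vm

theorem LinData.u_Vb (hb : IsLargest D.ρ D.Vm Vb) : ∀ v ∈ Vb, D.u v ∈ Vb := by
  exact hb.map_mem D.u_comm D.u_Vm

theorem LinData.s_phi (v : V) : D.s (D.ρ D.φ v) - (1 - D.l) • v ∈ D.Vm := by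
  have e : D.s (D.ρ D.φ v) - (1 - D.l) • v =
      D.ρ D.φ (D.ρ D.φ v) - D.Tl (D.ρ D.φ v) + D.l • v := by
    rw [D.s_apply, rho_inv_apply]
    module
  rw [e]
  exact D.es v

theorem LinData.P_mem (hb : IsLargest D.ρ D.Vm Vb) (v : V) :
    ((1 - D.l) * (1 - D.l)) • v - (1 - D.l) • D.Tl (D.s v) + D.l • D.s (D.s v) ∈ Vb := by
  set P : V →ₗ[K] V := ((1 - D.l) * (1 - D.l)) • LinearMap.id - (1 - D.l) • (D.Tl ∘ₗ D.s)
    + D.l • (D.s ∘ₗ D.s) with hP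
  have hPv : ∀ w, P w = ((1 - D.l) * (1 - D.l)) • w - (1 - D.l) • D.Tl (D.s w)
      + D.l • D.s (D.s w) := fun w => rfl
  have hcomm : ∀ g w, P (D.ρ g w) = D.ρ g (P w) := by
    intro g w
    rw [hPv, hPv, D.s_comm, D.s_comm, D.Tl_comm, map_add, map_sub, map_smul, map_smul, map_smul]
  have hmem : ∀ w, P w ∈ D.Vm := by
    intro w
    have e : P w = D.s (D.s (D.ρ D.φ (D.ρ D.φ w) - D.Tl (D.ρ D.φ w) + D.l • w))
        - (1 - D.l) • (D.s (D.ρ D.φ w) - (1 - D.l) • w)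
        - (D.s (D.ρ D.φ (D.s (D.ρ D.φ w))) - (1 - D.l) • D.s (D.ρ D.φ w))
        + D.Tl (D.s (D.s (D.ρ D.φ w) - (1 - D.l) • w)) := by
      rw [hPv]
      simp only [map_sub, map_add, map_smul, D.s_comm, D.Tl_comm, D.Tl_s]
      module
    rw [e]
    exact D.Vm.add_mem (D.Vm.sub_mem (D.Vm.sub_mem (D.s_Vm _ (D.s_Vm _ (D.es w)))
      (D.Vm.smul_mem _ (D.s_phi w))) (D.s_phi _)) (D.Tl_Vm _ (D.s_Vm _ (D.s_phi w)))
  exact star hb hcomm hmem v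

theorem LinData.FrobU_kappa_ne : (1 - D.l) ≠ 0 := by
  intro h
  exact D.l_ne (sub_eq_zero.1 h).symm

theorem LinData.u_s (hb : IsLargest D.ρ D.Vm Vb) (v : V) : D.u (D.s v) - (1 - D.l) • v ∈ Vb := by
  have hk := D.FrobU_kappa_ne
  have e : D.u (D.s v) - (1 - D.l) • v = (-(1 - D.l)⁻¹) •
      (((1 - D.l) * (1 - D.l)) • v - (1 - D.l) • D.Tl (D.s v) + D.l • D.s (D.s v)) := by
    rw [D.u_apply]
    simp only [smul_add, smul_sub, smul_smul]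
    have h1 : -(1 - D.l)⁻¹ * ((1 - D.l) * (1 - D.l)) = -(1 - D.l) := by field_simp
    have h2 : -(1 - D.l)⁻¹ * (1 - D.l) = -1 := by field_simp
    have h3 : -(1 - D.l)⁻¹ * D.l = -(D.l / (1 - D.l)) := by field_simp
    rw [h1, h2, h3]
    module
  rw [e]
  exact Vb.smul_mem _ (D.P_mem hb v)

theorem LinData.FrobU_of_smul {Y : Submodule K V} {v : V} (h : (1 - D.l) • v ∈ Y) : v ∈ Y := by
  have := Y.smul_mem (1 - D.l)⁻¹ h
  rwa [smul_smul, inv_mul_cancel₀ D.FrobU_kappa_ne, one_smul] at this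

theorem LinData.s_reflect (hb : IsLargest D.ρ D.Vm Vb) {v : V} (h : D.s v ∈ Vb) : v ∈ Vb := by
  apply D.FrobU_of_smul
  have h1 := Vb.sub_mem (D.u_Vb hb _ h) (D.u_s hb v)
  rwa [sub_sub_cancel] at h1

theorem LinData.u_reflect (hb : IsLargest D.ρ D.Vm Vb) {v : V} (h : D.u v ∈ Vb) : v ∈ Vb := by
  apply D.FrobU_of_smul
  have h0 := D.s_Vb hb _ h
  rw [← D.u_s_comm] at h0
  have h1 := Vb.sub_mem h0 (D.u_s hb v)
  rwa [sub_sub_cancel] at h1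

theorem LinData.phi_sub_u (hb : IsLargest D.ρ D.Vm Vb) (v : V) : D.ρ D.φ v - D.u v ∈ D.Vm := by
  apply D.FrobU_of_smul
  have h1 : D.s (D.ρ D.φ v - D.u v) ∈ D.Vm := by
    have e : D.s (D.ρ D.φ v - D.u v) = (D.s (D.ρ D.φ v) - (1 - D.l) • v)
        - (D.u (D.s v) - (1 - D.l) • v) := by
      rw [map_sub, D.u_s_comm]
      abel
    rw [e]
    exact D.Vm.sub_mem (D.s_phi v) (hb.le (D.u_s hb v))
  have h2 := D.Vm.sub_mem (D.u_Vm _ h1) (hb.le (D.u_s hb (D.ρ D.φ v - D.u v)))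
  rwa [sub_sub_cancel] at h2

theorem LinData.u_quad (hb : IsLargest D.ρ D.Vm Vb) (v : V) :
    D.u (D.u v) - D.Tl (D.u v) + D.l • v ∈ Vb := by
  apply D.s_reflect hb
  apply D.s_reflect hb
  have e : D.s (D.s (D.u (D.u v) - D.Tl (D.u v) + D.l • v)) =
      (((1 - D.l) * (1 - D.l)) • v - (1 - D.l) • D.Tl (D.s v) + D.l • D.s (D.s v))
      + (1 - D.l) • (D.u (D.s v) - (1 - D.l) • v)
      + (D.u (D.s (D.u (D.s v))) - (1 - D.l) • D.u (D.s v))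
      - D.Tl (D.s (D.u (D.s v) - (1 - D.l) • v)) := by
    simp only [map_sub, map_add, map_smul, D.u_s_comm, D.Tl_s, D.Tl_u]
    module
  rw [e]
  exact Vb.sub_mem (Vb.add_mem (Vb.add_mem (D.P_mem hb v) (Vb.smul_mem _ (D.u_s hb v)))
    (D.u_s hb _)) (D.Tl_Vb hb _ (D.s_Vb hb _ (D.u_s hb v)))

theorem LinData.u_sq_reflect [FiniteDimensional K V] (hb : IsLargest D.ρ D.Vm Vb) {v : V}
    (h : D.u (D.u v) - v ∈ Vb) : v ∈ Vb := by
  -- step 1: `u v + v ∈ Vb`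
  have h1 : D.u v + v ∈ Vb := by
    apply D.u_reflect hb
    refine mem_of_apply_mem (s := D.Tl - (1 + D.l) • LinearMap.id) ?_ ?_ ?_
    · intro w hw
      exact D.ne1 w (sub_eq_zero.1 hw)
    · intro w hw
      exact Vb.sub_mem (D.Tl_Vb hb w hw) (Vb.smul_mem _ hw)
    · show D.Tl (D.u (D.u v + v)) - (1 + D.l) • D.u (D.u v + v) ∈ Vb
      have e : D.Tl (D.u (D.u v + v)) - (1 + D.l) • D.u (D.u v + v) =
          (D.u (D.u (D.u v) - v) - D.l • (D.u (D.u v) - v))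
          - (D.u (D.u (D.u v + v)) - D.Tl (D.u (D.u v + v)) + D.l • (D.u v + v)) := by
        simp only [map_sub, map_add]
        module
      rw [e]
      exact Vb.sub_mem (Vb.sub_mem (D.u_Vb hb _ h) (Vb.smul_mem _ h)) (D.u_quad hb _)
  -- step 2
  apply D.u_reflect hb
  refine mem_of_apply_mem (s := D.Tl + (1 + D.l) • LinearMap.id) ?_ ?_ ?_
  · intro w hw
    exact D.ne2 w hw
  · intro w hw
    exact Vb.add_mem (D.Tl_Vb hb w hw) (Vb.smul_mem _ hw)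
  · show D.Tl (D.u v) + (1 + D.l) • D.u v ∈ Vb
    have e : D.Tl (D.u v) + (1 + D.l) • D.u v =
        (D.u (D.u v + v) + D.l • (D.u v + v))
        - (D.u (D.u v) - D.Tl (D.u v) + D.l • v) := by
      simp only [map_add]
      module
    rw [e]
    exact Vb.sub_mem (Vb.add_mem (D.u_Vb hb _ h1) (Vb.smul_mem _ h1)) (D.u_quad hb _)

/-- relative version of `mem_of_apply_mem`: an operator preserving `B ≤ Y` and reflecting membership in `B`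
reflects membership in `Y` (apply `mem_of_apply_mem` on `V ⧸ B`). -/
theorem FrobU_mem_of_apply_mem_rel [FiniteDimensional K V] {A : V →ₗ[K] V} {B Y : Submodule K V}
    (hBY : B ≤ Y) (hB : ∀ y ∈ B, A y ∈ B) (hY : ∀ y ∈ Y, A y ∈ Y) (hr : ∀ v, A v ∈ B → v ∈ B)
    {v : V} (hv : A v ∈ Y) : v ∈ Y := by
  have hB' : B ≤ B.comap A := hB
  have key : B.mkQ v ∈ Y.map B.mkQ := by
    refine mem_of_apply_mem (V := V ⧸ B) (s := B.mapQ B A hB') ?_ ?_ ?_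
    · intro x hx
      obtain ⟨w, rfl⟩ := B.mkQ_surjective x
      rw [Submodule.mkQ_apply, Submodule.mapQ_apply, Submodule.Quotient.mk_eq_zero] at hx
      rw [Submodule.mkQ_apply, Submodule.Quotient.mk_eq_zero]
      exact hr w hx
    · rintro _ ⟨y, hy, rfl⟩
      exact ⟨A y, hY y hy, rfl⟩
    · exact ⟨A v, hv, rfl⟩
  obtain ⟨y, hy, hyv⟩ := key
  have h1 : y - v ∈ B := by
    rw [← Submodule.Quotient.mk_eq_zero, Submodule.Quotient.mk_sub, sub_eq_zero]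
    exact hyv
  have h2 := Y.sub_mem hy (hBY h1)
  rwa [sub_sub_cancel] at h2

/-- the hypotheses of Lemma GMA with `inj` weakened to `refl` (`a² - c` reflects membership in `Vm`). -/
structure FrobU_Hyp (ρ : Representation K Γ V) (χ : Γ →* K) (Vm Vb : Submodule K V) (g₀ : Γ)
    (a : V →ₗ[K] V) : Prop where
  ch : CH ρ χ
  largest : IsLargest ρ Vm Vb
  t_Vm : ∀ g, ∀ v ∈ Vm, tOp ρ χ g v ∈ Vm
  a_comm : ∀ g v, a (ρ g v) = ρ g (a v)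
  a_Vm : ∀ v ∈ Vm, a v ∈ Vm
  g_Vm : ∀ v ∈ Vm, ρ g₀ v ∈ Vm
  quot : ∀ v, ρ g₀ v - a v ∈ Vm
  refl : ∀ y, a (a y) - χ g₀ • y ∈ Vm → y ∈ Vm

section FrobU_gma

variable {ρ : Representation K Γ V} {χ : Γ →* K} {Vm Vb : Submodule K V} {g₀ : Γ} {a : V →ₗ[K] V}

theorem FrobU_gma_F (H : FrobU_Hyp ρ χ Vm Vb g₀ a) (v : V) :
    a (tOp ρ χ g₀ v) - a (a v) - χ g₀ • v ∈ Vb := by
  set F : V →ₗ[K] V := a ∘ₗ tOp ρ χ g₀ - a ∘ₗ a - χ g₀ • LinearMap.id with hF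
  have hFv : ∀ w, F w = a (tOp ρ χ g₀ w) - a (a w) - χ g₀ • w := fun w => rfl
  have hcomm : ∀ g w, F (ρ g w) = ρ g (F w) := by
    intro g w
    rw [hFv, hFv, H.ch, H.a_comm, H.a_comm, H.a_comm, map_sub, map_sub, map_smul]
  have h1 : (⊤ : Submodule K V).map F ≤ Vb := by
    refine H.largest.max _ ((isStab_top ρ).map hcomm) ?_
    rintro _ ⟨w, -, rfl⟩
    have h2 : a (ρ g₀ w - a w) ∈ Vm := H.a_Vm _ (H.quot w)
    have h3 : w - a (ρ g₀⁻¹ w) ∈ Vm := by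
      have := H.quot (ρ g₀⁻¹ w)
      rwa [rho_apply_inv] at this
    have h4 : F w = a (ρ g₀ w - a w) - χ g₀ • (w - a (ρ g₀⁻¹ w)) := by
      rw [hFv, tOp_apply, map_add, map_smul, map_sub, smul_sub]
      abel
    rw [h4]
    exact Vm.sub_mem h2 (Vm.smul_mem _ h3)
  exact h1 (Submodule.mem_map_of_mem (Submodule.mem_top (x := v)))

theorem FrobU_gma_quad (H : FrobU_Hyp ρ χ Vm Vb g₀ a) (v : V) :
    ρ g₀ (a (ρ g₀ v) - χ g₀ • v) - a (a (ρ g₀ v) - χ g₀ • v) ∈ Vb := by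
  have h1 := FrobU_gma_F H (ρ g₀ v)
  have h2 : ρ g₀ (ρ g₀ v) = tOp ρ χ g₀ (ρ g₀ v) - χ g₀ • v := by
    have := quad ρ χ g₀ v
    rw [sub_add_eq_add_sub, sub_eq_zero] at this
    rw [← this, add_sub_cancel_right]
  have h3 : ρ g₀ (a (ρ g₀ v) - χ g₀ • v) - a (a (ρ g₀ v) - χ g₀ • v) =
      a (tOp ρ χ g₀ (ρ g₀ v)) - a (a (ρ g₀ v)) - χ g₀ • ρ g₀ v := by
    rw [map_sub, map_sub, ← H.a_comm, h2, map_sub, map_smul, map_smul]
    abel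
  rw [h3]
  exact h1

theorem FrobU_gma_X (H : FrobU_Hyp ρ χ Vm Vb g₀ a) {v : V} (hv : v ∈ Vm)
    (h : ρ g₀ v - a v ∈ Vb) : v ∈ Vb := by
  set X : Submodule K V := Vm ⊓ Vb.comap (ρ g₀ - a) with hX
  have hXmem : ∀ x, x ∈ X ↔ x ∈ Vm ∧ ρ g₀ x - a x ∈ Vb := fun x => Iff.rfl
  obtain ⟨Z, hZs, hXZ, hZmin⟩ := exists_span ρ X
  have key : ∀ g, ∀ x ∈ X, ρ g x ∈ Vm := by
    intro g x hx
    obtain ⟨hxm, hxb⟩ := (hXmem x).1 hx
    apply H.refl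
    have h1 : x - a (ρ g₀⁻¹ x) ∈ Vb := by
      have := H.largest.stab g₀⁻¹ _ hxb
      rwa [map_sub, rho_inv_apply, ← H.a_comm] at this
    have h2 : ρ g⁻¹ (x - a (ρ g₀⁻¹ x)) ∈ Vm := H.largest.le (H.largest.stab _ _ h1)
    have h3 : a (tOp ρ χ (g₀ * g) x) - χ g₀ • tOp ρ χ g x ∈ Vm :=
      Vm.sub_mem (H.a_Vm _ (H.t_Vm _ _ hxm)) (Vm.smul_mem _ (H.t_Vm _ _ hxm))
    have h4 : a (ρ g₀ (ρ g x) - a (ρ g x)) ∈ Vm := H.a_Vm _ (H.quot _)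
    have h5 : a (a (ρ g x)) - χ g₀ • ρ g x =
        (a (tOp ρ χ (g₀ * g) x) - χ g₀ • tOp ρ χ g x)
          + (χ g₀ * χ g) • ρ g⁻¹ (x - a (ρ g₀⁻¹ x)) - a (ρ g₀ (ρ g x) - a (ρ g x)) := by
      rw [tOp_apply, tOp_apply, mul_inv_rev, rho_mul_apply, rho_mul_apply, map_mul, map_add,
        map_smul, map_sub, map_sub, H.a_comm g⁻¹, smul_add, smul_sub, smul_smul]
      abel
    rw [h5]
    exact Vm.sub_mem (Vm.add_mem h3 (Vm.smul_mem _ h2)) h4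
  exact H.largest.max Z hZs (hZmin Vm key) (hXZ ((hXmem v).2 ⟨hv, h⟩))

theorem FrobU_gma_Vm (H : FrobU_Hyp ρ χ Vm Vb g₀ a) {v : V} (hv : v ∈ Vm) :
    a (ρ g₀ v) - χ g₀ • v ∈ Vb :=
  FrobU_gma_X H (Vm.sub_mem (H.a_Vm _ (H.g_Vm _ hv)) (Vm.smul_mem _ hv)) (FrobU_gma_quad H v)

end FrobU_gma

/-- `u² - 1` reflects membership in `Vm`. -/
theorem LinData.FrobU_refl [FiniteDimensional K V] (hb : IsLargest D.ρ D.Vm Vb) {y : V}
    (h : D.u (D.u y) - y ∈ D.Vm) : y ∈ D.Vm := by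
  refine FrobU_mem_of_apply_mem_rel (A := D.u ∘ₗ D.u - LinearMap.id) hb.le ?_ ?_ ?_ h
  · intro w hw
    exact Vb.sub_mem (D.u_Vb hb _ (D.u_Vb hb _ hw)) hw
  · intro w hw
    exact D.Vm.sub_mem (D.u_Vm _ (D.u_Vm _ hw)) hw
  · intro w hw
    exact D.u_sq_reflect hb hw

/-- replaces `gmaHyp_φ` of the skeleton (whose field `inj` is not provable: only `refl` holds). -/
theorem LinData.FrobU_hyp_φ [FiniteDimensional K V] (hb : IsLargest D.ρ D.Vm Vb) :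
    FrobU_Hyp D.ρ D.χ D.Vm Vb D.φ D.u where
  ch := D.ch
  largest := hb
  t_Vm := D.t_Vm
  a_comm := D.u_comm
  a_Vm := D.u_Vm
  g_Vm := D.φ_Vm
  quot := D.phi_sub_u hb
  refl := by
    intro y hy
    rw [D.χ_φ, one_smul] at hy
    exact D.FrobU_refl hb hy

/-- (L2) -/
theorem LinData.L2 [FiniteDimensional K V] (hb : IsLargest D.ρ D.Vm Vb) :
    ∀ v ∈ D.Vm, D.u (D.ρ D.φ v) - v ∈ Vb := by
  intro v hv
  have h := FrobU_gma_Vm (D.FrobU_hyp_φ hb) hv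
  rwa [D.χ_φ, one_smul] at h

end Fermat.Agent.S15.Lin
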