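import Fermat.Agent.S15.Lin.Dim

/-!
# S15-LIN, file `GMA`: Lemma GMA, relative to `Vb` = the largest stable subspace of `Vm`

`g = ρ g₀`, `g⁻ = ρ g₀⁻¹`, `c = χ g₀`, `t = t_{g₀} = g + c g⁻`.  `a` commutes with `Γ`, preserves `Vm`;
`g` preserves `Vm`; `g v ≡ a v mod Vm` for all `v`; `a² - c` is injective MODULO `Vb`.  (No inverse of `a` is used.)
* `a Vb ≤ Vb` (`Vb.map a` is stable and `≤ Vm`).
* Step 1 (`gma_F`): `F := a t - a² - c` maps `V` into `Vb`.  [`a g⁻ v ≡ g g⁻ v = v mod Vm` (`hquot` at `g⁻ v`),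
  `a g v ≡ a a v mod Vm`; so `F v ∈ Vm`; `F` commutes with `Γ`, so its range is stable, so `≤ Vb`.]
* Step 2 (`gma_quad`): `(g - a)(a g - c) v ∈ Vb`.  [`g² - t g + c = 0` (`quad`); apply `a`:
  `a g² v - (a t)(g v) + c a v = 0`, and `(a t)(g v) ≡ (a² + c)(g v) mod Vb`.]
* Step 3 (`gma_X`): `X := {v ∈ Vm | g v - a v ∈ Vb} ≤ Vb`.  For `v ∈ X`, `h ∈ Γ`, `y := ρ h v`:
  `s := a t_{g₀ h} - c t_h` preserves `Vm`, and `s v ≡ (a g - c) y mod Vb`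
  [`a g⁻ v ≡ v mod Vb` since `g v ≡ a v mod Vb`, `Vb` stable].  So `(a g - c) y ∈ Vm`; `a (g - a) y ∈ Vm`;
  difference: `(a² - c) y ∈ Vm`, so `y ∈ Vm` (`mem_of_apply_mem`).  Hence the `Γ`-span of `X` (`exists_span`) is `≤ Vm`,
  so `≤ Vb`.
* Step 4 (`gma_Vm`): `v ∈ Vm ⟹ w := (a g - c) v ∈ Vm` and `(g - a) w ∈ Vb`: `w ∈ X ≤ Vb`.
* Step 5 (`gma_conv`): `(a g - c) v ∈ Vb ⟹ (a² - c) v = (a g - c) v - a (g - a) v ∈ Vm ⟹ v ∈ Vm`.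
-/

set_option autoImplicit false

namespace Fermat.Agent.S15.Lin

variable {K V Γ : Type*} [Field K] [AddCommGroup V] [Module K V] [Group Γ]
variable {ρ : Representation K Γ V} {χ : Γ →* K}

/-- the hypotheses of Lemma GMA -/
structure GMAHyp (ρ : Representation K Γ V) (χ : Γ →* K) (Vm Vb : Submodule K V) (g₀ : Γ)
    (a : V →ₗ[K] V) : Prop where
  ch : CH ρ χ
  largest : IsLargest ρ Vm Vb
  t_Vm : ∀ g, ∀ v ∈ Vm, tOp ρ χ g v ∈ Vm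
  a_comm : ∀ g v, a (ρ g v) = ρ g (a v)
  a_Vm : ∀ v ∈ Vm, a v ∈ Vm
  g_Vm : ∀ v ∈ Vm, ρ g₀ v ∈ Vm
  quot : ∀ v, ρ g₀ v - a v ∈ Vm
  inj : ∀ v, a (a v) - χ g₀ • v ∈ Vb → v ∈ Vb

variable {Vm Vb : Submodule K V} {g₀ : Γ} {a : V →ₗ[K] V}

theorem GMAHyp.a_Vb (H : GMAHyp ρ χ Vm Vb g₀ a) : ∀ v ∈ Vb, a v ∈ Vb := by
  intro v hv
  have h1 : Vb.map a ≤ Vb := by
    refine H.largest.max _ (H.largest.stab.map H.a_comm) ?_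
    rintro _ ⟨w, hw, rfl⟩
    exact H.a_Vm w (H.largest.le hw)
  exact h1 (Submodule.mem_map_of_mem hv)

/-- the operator `a² - c` reflects membership in `Vm`. -/
theorem GMA_mem_Vm [FiniteDimensional K V] (H : GMAHyp ρ χ Vm Vb g₀ a) {y : V}
    (h : a (a y) - χ g₀ • y ∈ Vm) : y ∈ Vm := by
  refine mem_of_apply_mem_rel (s := a ∘ₗ a - χ g₀ • LinearMap.id) H.largest.le ?_ ?_ h
  · intro v hv
    exact Vm.sub_mem (H.a_Vm _ (H.a_Vm _ hv)) (Vm.smul_mem _ hv)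
  · intro v hv
    exact H.inj v hv

theorem gma_F (H : GMAHyp ρ χ Vm Vb g₀ a) (v : V) :
    a (tOp ρ χ g₀ v) - a (a v) - χ g₀ • v ∈ Vb := by
  set F : V →ₗ[K] V := a ∘ₗ tOp ρ χ g₀ - a ∘ₗ a - χ g₀ • LinearMap.id with hF
  have hFv : ∀ w, F w = a (tOp ρ χ g₀ w) - a (a w) - χ g₀ • w := fun w => rfl
  have hcomm : ∀ g w, F (ρ g w) = ρ g (F w) := by
    intro g w
    rw [hFv, hFv, H.ch, H.a_comm, H.a_comm, H.a_comm, map_sub, map_sub, map_smul]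
  have h1 : (⊤ : Submodule K V).map F ≤ Vb := by
    refine H.largest.max _ ((isStab_top ρ).map hcomm) ?_
    rintro _ ⟨w, -, rfl⟩
    have h2 : a (ρ g₀ w - a w) ∈ Vm := H.a_Vm _ (H.quot w)
    have h3 : w - a (ρ g₀⁻¹ w) ∈ Vm := by
      have := H.quot (ρ g₀⁻¹ w)
      rwa [rho_apply_inv] at this
    have h4 : F w = a (ρ g₀ w - a w) - χ g₀ • (w - a (ρ g₀⁻¹ w)) := by
      rw [hFv, tOp_apply, map_add, map_smul, map_sub, smul_sub]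
      abel
    rw [h4]
    exact Vm.sub_mem h2 (Vm.smul_mem _ h3)
  exact h1 (Submodule.mem_map_of_mem (Submodule.mem_top (x := v)))

theorem gma_quad (H : GMAHyp ρ χ Vm Vb g₀ a) (v : V) :
    ρ g₀ (a (ρ g₀ v) - χ g₀ • v) - a (a (ρ g₀ v) - χ g₀ • v) ∈ Vb := by
  have h1 := gma_F H (ρ g₀ v)
  have h2 : ρ g₀ (ρ g₀ v) = tOp ρ χ g₀ (ρ g₀ v) - χ g₀ • v := by
    have := quad ρ χ g₀ v
    rw [sub_add_eq_add_sub, sub_eq_zero] at this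
    rw [← this, add_sub_cancel_right]
  have h3 : ρ g₀ (a (ρ g₀ v) - χ g₀ • v) - a (a (ρ g₀ v) - χ g₀ • v) =
      a (tOp ρ χ g₀ (ρ g₀ v)) - a (a (ρ g₀ v)) - χ g₀ • ρ g₀ v := by
    rw [map_sub, map_sub, ← H.a_comm, h2, map_sub, map_smul, map_smul]
    abel
  rw [h3]
  exact h1

theorem gma_X [FiniteDimensional K V] (H : GMAHyp ρ χ Vm Vb g₀ a) {v : V} (hv : v ∈ Vm)
    (h : ρ g₀ v - a v ∈ Vb) : v ∈ Vb := by
  set X : Submodule K V := Vm ⊓ Vb.comap (ρ g₀ - a) with hX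
  have hXmem : ∀ x, x ∈ X ↔ x ∈ Vm ∧ ρ g₀ x - a x ∈ Vb := fun x => Iff.rfl
  obtain ⟨Z, hZs, hXZ, hZmin⟩ := exists_span ρ X
  have key : ∀ g, ∀ x ∈ X, ρ g x ∈ Vm := by
    intro g x hx
    obtain ⟨hxm, hxb⟩ := (hXmem x).1 hx
    apply GMA_mem_Vm H
    -- `a g⁻ x - x ∈ Vb`
    have h1 : x - a (ρ g₀⁻¹ x) ∈ Vb := by
      have := H.largest.stab g₀⁻¹ _ hxb
      rwa [map_sub, rho_inv_apply, ← H.a_comm] at this
    have h2 : ρ g⁻¹ (x - a (ρ g₀⁻¹ x)) ∈ Vm := H.largest.le (H.largest.stab _ _ h1)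
    have h3 : a (tOp ρ χ (g₀ * g) x) - χ g₀ • tOp ρ χ g x ∈ Vm :=
      Vm.sub_mem (H.a_Vm _ (H.t_Vm _ _ hxm)) (Vm.smul_mem _ (H.t_Vm _ _ hxm))
    have h4 : a (ρ g₀ (ρ g x) - a (ρ g x)) ∈ Vm := H.a_Vm _ (H.quot _)
    have h5 : a (a (ρ g x)) - χ g₀ • ρ g x =
        (a (tOp ρ χ (g₀ * g) x) - χ g₀ • tOp ρ χ g x)
          + (χ g₀ * χ g) • ρ g⁻¹ (x - a (ρ g₀⁻¹ x)) - a (ρ g₀ (ρ g x) - a (ρ g x)) := by
      rw [tOp_apply, tOp_apply, mul_inv_rev, rho_mul_apply, rho_mul_apply, map_mul, map_add,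
        map_smul, map_sub, map_sub, H.a_comm g⁻¹, smul_add, smul_sub, smul_smul]
      abel
    rw [h5]
    exact Vm.sub_mem (Vm.add_mem h3 (Vm.smul_mem _ h2)) h4
  exact H.largest.max Z hZs (hZmin Vm key) (hXZ ((hXmem v).2 ⟨hv, h⟩))

theorem gma_Vm [FiniteDimensional K V] (H : GMAHyp ρ χ Vm Vb g₀ a) {v : V} (hv : v ∈ Vm) :
    a (ρ g₀ v) - χ g₀ • v ∈ Vb :=
  gma_X H (Vm.sub_mem (H.a_Vm _ (H.g_Vm _ hv)) (Vm.smul_mem _ hv)) (gma_quad H v)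

theorem gma_conv [FiniteDimensional K V] (H : GMAHyp ρ χ Vm Vb g₀ a) {v : V}
    (h : a (ρ g₀ v) - χ g₀ • v ∈ Vb) : v ∈ Vm := by
  apply GMA_mem_Vm H
  have h1 : a (ρ g₀ v - a v) ∈ Vm := H.a_Vm _ (H.quot v)
  have h2 : a (a v) - χ g₀ • v = (a (ρ g₀ v) - χ g₀ • v) - a (ρ g₀ v - a v) := by
    rw [map_sub]
    abel
  rw [h2]
  exact Vm.sub_mem (H.largest.le h) h1

end Fermat.Agent.S15.Lin
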