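import Fermat.Agent.S15.Lin.Scalar
import Fermat.Agent.S15.Lin.Dim

/-!
# S15-LIN, file `Half`: Lemma HALF on a simple subquotient `Y / Z`

`g₀ ∈ Γ`, `a b : K`, `a b = χ g₀`, `a ≠ b`, `(ρ g₀ - a)(ρ g₀ - b) Y ≤ Z`, `Y / Z` simple and NOT commutative.
Then `dim E_a = dim E_b` (`E_c = eig ρ g₀ c Z Y`).  By symmetry it is enough to prove `dim E_a ≤ dim E_b`.
All congruences are modulo `Z`.

`α h := t_{g₀ h} - b t_h`, `δ h' h := α h' ∘ α h - (a - b) α (h' h)` (central operators).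
* (`half_key`) for `v ∈ E_a`: `(ρ g₀ - b) ρ h v ≡ α h v`.  [`a ρ g₀⁻¹ v ≡ v` (`smul_inv_sub_mem`), so
  `χ g₀ ρ g₀⁻¹ v = b (a ρ g₀⁻¹ v) ≡ b v`; `t_{g₀ h} v = ρ g₀ ρ h v + χ h ρ h⁻¹ (χ g₀ ρ g₀⁻¹ v) ≡ ρ g₀ ρ h v + b χ h ρ h⁻¹ v`.]
* (`half_key2`) for `v ∈ E_a`: `(ρ g₀ - b) ρ h' ((ρ g₀ - a) ρ h v) ≡ δ h' h v`.
  [`ρ g₀ - a = (ρ g₀ - b) - (a - b)`; `(ρ g₀ - b) ρ h' (α h v) = α h ((ρ g₀ - b) ρ h' v)`.]
* Schur: each `δ h' h` is `≡ 0` on `Y` or injective modulo `Z`.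
* If some `δ h' h` is injective modulo `Z`: `F := (ρ g₀ - a) ∘ ρ h` maps `E_a` to `E_b` and `F v ∈ Z → v ∈ Z`
  on `E_a`; `finrank_rel_le` (`A' = B' = Z`).
* If all `δ h' h ≡ 0` (`half_degenerate`): `X :=` the `Γ`-span of `{(ρ g₀ - a) ρ h v}` plus `Z` is stable, `Z ≤ X ≤ E_b`.
  `X = Y`: `ρ g₀ ≡ b` on `Y`: commutative (`isComm_of_scalar`, `b b ≠ a b`).  `X = Z`: the `Γ`-span of `E_a` plus `Z` is
  stable and `≤ E_a`; it is `Y` (`ρ g₀ ≡ a`: commutative) or `Z` (`E_a = Z`, so `E_b = Y` by `eig_sup_eig`: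
  commutative).
-/

set_option autoImplicit false

namespace Fermat.Agent.S15.Lin

open Module (finrank)

variable {K V Γ : Type*} [Field K] [AddCommGroup V] [Module K V] [Group Γ]
variable {ρ : Representation K Γ V} {χ : Γ →* K}

/-- `α h = t_{g₀ h} - b t_h` -/
def alphaOp (ρ : Representation K Γ V) (χ : Γ →* K) (g₀ : Γ) (b : K) (h : Γ) : V →ₗ[K] V :=
  tOp ρ χ (g₀ * h) - b • tOp ρ χ h

/-- `δ h' h = α h' ∘ α h - (a - b) α (h' h)` -/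
def deltaOp (ρ : Representation K Γ V) (χ : Γ →* K) (g₀ : Γ) (a b : K) (h' h : Γ) : V →ₗ[K] V :=
  alphaOp ρ χ g₀ b h' ∘ₗ alphaOp ρ χ g₀ b h - (a - b) • alphaOp ρ χ g₀ b (h' * h)

theorem isCen_alphaOp (hCH : CH ρ χ) (g₀ : Γ) (b : K) (h : Γ) : IsCen ρ (alphaOp ρ χ g₀ b h) :=
  (isCen_tOp hCH (g₀ * h)).sub ((isCen_tOp hCH h).smul b)

theorem isCen_deltaOp (hCH : CH ρ χ) (g₀ : Γ) (a b : K) (h' h : Γ) :
    IsCen ρ (deltaOp ρ χ g₀ a b h' h) :=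
  ((isCen_alphaOp hCH g₀ b h').comp (isCen_alphaOp hCH g₀ b h)).sub
    ((isCen_alphaOp hCH g₀ b (h' * h)).smul (a - b))

theorem half_key {Z Y : Submodule K V} (hZ : IsStab ρ Z) (hY : IsStab ρ Y) {g₀ : Γ} {a b : K}
    (hab : a * b = χ g₀) (h : Γ) {v : V} (hv : v ∈ eig ρ g₀ a Z Y) :
    (ρ g₀ (ρ h v) - b • ρ h v) - alphaOp ρ χ g₀ b h v ∈ Z := by
  have h1 : a • ρ g₀⁻¹ v - v ∈ Z := smul_inv_sub_mem hZ hY (mem_eig.1 hv).1 (mem_eig.1 hv).2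
  have e : (ρ g₀ (ρ h v) - b • ρ h v) - alphaOp ρ χ g₀ b h v =
      (-(b * χ h)) • ρ h⁻¹ (a • ρ g₀⁻¹ v - v) := by
    simp only [alphaOp, LinearMap.sub_apply, LinearMap.smul_apply, tOp_apply, mul_inv_rev,
      map_mul, map_sub, map_smul, ← hab]
    module
  rw [e]
  exact Z.smul_mem _ (hZ _ _ h1)

theorem half_key2 (hCH : CH ρ χ) {Z Y : Submodule K V} (hZ : IsStab ρ Z) (hY : IsStab ρ Y) {g₀ : Γ}
    {a b : K} (hab : a * b = χ g₀) (h' h : Γ) {v : V} (hv : v ∈ eig ρ g₀ a Z Y) :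
    (ρ g₀ (ρ h' (ρ g₀ (ρ h v) - a • ρ h v)) - b • ρ h' (ρ g₀ (ρ h v) - a • ρ h v)) -
      deltaOp ρ χ g₀ a b h' h v ∈ Z := by
  have hα := isCen_alphaOp hCH g₀ b h
  have hw : alphaOp ρ χ g₀ b h v ∈ eig ρ g₀ a Z Y := by
    refine mem_eig.2 ⟨hα.stab Y hY v (mem_eig.1 hv).1, ?_⟩
    have h1 := hα.stab Z hZ _ (mem_eig.1 hv).2
    rwa [map_sub, map_smul, hα.comm] at h1
  have k1 := half_key hZ hY hab h hv
  have k2 := half_key hZ hY hab h' hw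
  have k3 := half_key hZ hY hab (h' * h) hv
  have k1' : ρ g₀ (ρ h' ((ρ g₀ (ρ h v) - b • ρ h v) - alphaOp ρ χ g₀ b h v)) -
      b • ρ h' ((ρ g₀ (ρ h v) - b • ρ h v) - alphaOp ρ χ g₀ b h v) ∈ Z :=
    Z.sub_mem (hZ _ _ (hZ _ _ k1)) (Z.smul_mem _ (hZ _ _ k1))
  have e : (ρ g₀ (ρ h' (ρ g₀ (ρ h v) - a • ρ h v)) - b • ρ h' (ρ g₀ (ρ h v) - a • ρ h v)) -
      deltaOp ρ χ g₀ a b h' h v =
      ((ρ g₀ (ρ h' (alphaOp ρ χ g₀ b h v)) - b • ρ h' (alphaOp ρ χ g₀ b h v)) -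
        alphaOp ρ χ g₀ b h' (alphaOp ρ χ g₀ b h v)) +
      (ρ g₀ (ρ h' ((ρ g₀ (ρ h v) - b • ρ h v) - alphaOp ρ χ g₀ b h v)) -
        b • ρ h' ((ρ g₀ (ρ h v) - b • ρ h v) - alphaOp ρ χ g₀ b h v)) -
      (a - b) • ((ρ g₀ (ρ (h' * h) v) - b • ρ (h' * h) v) - alphaOp ρ χ g₀ b (h' * h) v) := by
    simp only [deltaOp, LinearMap.sub_apply, LinearMap.comp_apply, LinearMap.smul_apply, map_sub,
      map_smul, rho_mul_apply]
    module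
  rw [e]
  exact Z.sub_mem (Z.add_mem k2 k1') (Z.smul_mem _ k3)

/-- the degenerate case. -/
theorem half_degenerate (hCH : CH ρ χ) {Z Y : Submodule K V} (hS : IsSimp ρ Z Y) {g₀ : Γ} {a b : K}
    (hab : a * b = χ g₀) (hne : a ≠ b)
    (hq : ∀ y ∈ Y, ρ g₀ (ρ g₀ y - b • y) - a • (ρ g₀ y - b • y) ∈ Z)
    (hδ : ∀ h' h, ∀ v ∈ eig ρ g₀ a Z Y,
      ρ g₀ (ρ h' (ρ g₀ (ρ h v) - a • ρ h v)) - b • ρ h' (ρ g₀ (ρ h v) - a • ρ h v) ∈ Z) :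
    IsComm ρ Z Y := by
  have hχ : a * b ≠ 0 := by rw [hab]; exact chi_ne_zero χ g₀
  have ha0 : a ≠ 0 := left_ne_zero_of_mul hχ
  have hb0 : b ≠ 0 := right_ne_zero_of_mul hχ
  have hZY : Z ≤ Y := hS.lt.le
  -- the two scalar cases
  have caseb : eig ρ g₀ b Z Y = Y → IsComm ρ Z Y := by
    intro hE
    refine isComm_of_scalar hCH hS.stab' hS.stab (g₀ := g₀) (c := b) ?_ ?_
    · rw [← hab]
      intro h
      exact hne (mul_right_cancel₀ hb0 h).symm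
    · intro y hy
      have : y ∈ eig ρ g₀ b Z Y := by rw [hE]; exact hy
      exact (mem_eig.1 this).2
  have casea : eig ρ g₀ a Z Y = Y → IsComm ρ Z Y := by
    intro hE
    refine isComm_of_scalar hCH hS.stab' hS.stab (g₀ := g₀) (c := a) ?_ ?_
    · rw [← hab]
      intro h
      exact hne (mul_left_cancel₀ ha0 h)
    · intro y hy
      have : y ∈ eig ρ g₀ a Z Y := by rw [hE]; exact hy
      exact (mem_eig.1 this).2
  -- the span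
  let X0 : Submodule K V := Submodule.span K
    {x | ∃ h, ∃ v ∈ eig ρ g₀ a Z Y, x = ρ g₀ (ρ h v) - a • ρ h v}
  obtain ⟨X1, hX1s, hX01, hX1min⟩ := exists_span ρ X0
  have hX1b : X1 ≤ eig ρ g₀ b Z Y := by
    apply hX1min
    intro g
    have : X0 ≤ (eig ρ g₀ b Z Y).comap (ρ g) := by
      apply Submodule.span_le.2
      rintro x ⟨h, v, hv, rfl⟩
      have hvY : v ∈ Y := (mem_eig.1 hv).1
      have h1 : ρ h v ∈ Y := hS.stab h v hvY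
      show ρ g (ρ g₀ (ρ h v) - a • ρ h v) ∈ eig ρ g₀ b Z Y
      refine mem_eig.2 ⟨hS.stab g _ (Y.sub_mem (hS.stab g₀ _ h1) (Y.smul_mem a h1)), hδ g h v hv⟩
    exact fun x hx => this hx
  have hXs : IsStab ρ (X1 ⊔ Z) := hX1s.sup hS.stab'
  have hZb : Z ≤ eig ρ g₀ b Z Y := le_eig hS.stab' hZY g₀ b
  have hXb : X1 ⊔ Z ≤ eig ρ g₀ b Z Y := sup_le hX1b hZb
  rcases hS.simple (X1 ⊔ Z) hXs le_sup_right (hXb.trans (eig_le ρ g₀ b Z Y)) with hX | hX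
  · -- `X = Z`
    have hEa : ∀ g, ∀ x ∈ eig ρ g₀ a Z Y, ρ g x ∈ eig ρ g₀ a Z Y := by
      intro g x hx
      refine mem_eig.2 ⟨hS.stab g x (mem_eig.1 hx).1, ?_⟩
      have h1 : ρ g₀ (ρ g x) - a • ρ g x ∈ X0 := Submodule.subset_span ⟨g, x, hx, rfl⟩
      have h2 : ρ g₀ (ρ g x) - a • ρ g x ∈ X1 ⊔ Z := Submodule.mem_sup_left (hX01 h1)
      rw [hX] at h2
      exact h2
    have hEas : IsStab ρ (eig ρ g₀ a Z Y) := hEa
    rcases hS.simple _ hEas (le_eig hS.stab' hZY g₀ a) (eig_le ρ g₀ a Z Y) with hE | hE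
    · apply caseb
      have h3 := eig_sup_eig (B := Z) hS.stab g₀ hne hq
      rw [hE, sup_eq_right.2 hZb] at h3
      exact h3
    · exact casea hE
  · -- `X = Y`
    apply caseb
    exact le_antisymm (eig_le ρ g₀ b Z Y) (hX ▸ hXb)

theorem Half_swap (ρ : Representation K Γ V) (g₀ : Γ) (a b : K) (y : V) :
    ρ g₀ (ρ g₀ y - a • y) - b • (ρ g₀ y - a • y) = ρ g₀ (ρ g₀ y - b • y) - a • (ρ g₀ y - b • y) := by
  simp only [map_sub, map_smul, smul_sub, smul_smul, mul_comm b a]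
  abel

theorem half_le [FiniteDimensional K V] (hCH : CH ρ χ) {Z Y : Submodule K V} (hS : IsSimp ρ Z Y)
    {g₀ : Γ} {a b : K} (hab : a * b = χ g₀) (hne : a ≠ b)
    (hq : ∀ y ∈ Y, ρ g₀ (ρ g₀ y - b • y) - a • (ρ g₀ y - b • y) ∈ Z) (hnc : ¬ IsComm ρ Z Y) :
    finrank K (eig ρ g₀ a Z Y) ≤ finrank K (eig ρ g₀ b Z Y) := by
  have hZY : Z ≤ Y := hS.lt.le
  by_cases H : ∀ h' h, ∀ y ∈ Y, deltaOp ρ χ g₀ a b h' h y ∈ Z
  · exfalso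
    apply hnc
    refine half_degenerate hCH hS hab hne hq ?_
    intro h' h v hv
    have h1 := half_key2 hCH hS.stab' hS.stab hab h' h hv
    have h2 := H h' h v (mem_eig.1 hv).1
    have h3 := Z.add_mem h1 h2
    rwa [sub_add_cancel] at h3
  · push Not at H
    obtain ⟨h', h, y0, hy0, hy0Z⟩ := H
    have hinj : ∀ y ∈ Y, deltaOp ρ χ g₀ a b h' h y ∈ Z → y ∈ Z := by
      rcases hS.schur ((isCen_deltaOp hCH g₀ a b h' h).isCenOn hS.stab' hS.stab) with h1 | h1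
      · exact absurd (h1 y0 hy0) hy0Z
      · exact h1
    have key := finrank_rel_le ((ρ g₀ - a • LinearMap.id) ∘ₗ ρ h) (A' := Z)
      (A := eig ρ g₀ a Z Y) (B' := Z) (B := eig ρ g₀ b Z Y) (le_eig hS.stab' hZY g₀ b) ?_ ?_
    · omega
    · intro v hv
      have hvY : ρ h v ∈ Y := hS.stab h v (mem_eig.1 hv).1
      show ρ g₀ (ρ h v) - a • ρ h v ∈ eig ρ g₀ b Z Y
      refine mem_eig.2 ⟨Y.sub_mem (hS.stab g₀ _ hvY) (Y.smul_mem a hvY), ?_⟩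
      rw [Half_swap]
      exact hq _ hvY
    · intro v hv hFv
      have hFv' : ρ g₀ (ρ h v) - a • ρ h v ∈ Z := hFv
      have h1 := half_key2 hCH hS.stab' hS.stab hab h' h hv
      have h2 : ρ h' (ρ g₀ (ρ h v) - a • ρ h v) ∈ Z := hS.stab' h' _ hFv'
      have h3 : ρ g₀ (ρ h' (ρ g₀ (ρ h v) - a • ρ h v)) - b • ρ h' (ρ g₀ (ρ h v) - a • ρ h v) ∈ Z :=
        Z.sub_mem (hS.stab' g₀ _ h2) (Z.smul_mem b h2)
      have h4 := Z.sub_mem h3 h1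
      rw [sub_sub_cancel] at h4
      exact hinj v (mem_eig.1 hv).1 h4

/-- LEMMA HALF. -/
theorem half_simple [FiniteDimensional K V] (hCH : CH ρ χ) {Z Y : Submodule K V}
    (hS : IsSimp ρ Z Y) {g₀ : Γ} {a b : K} (hab : a * b = χ g₀) (hne : a ≠ b)
    (hq : ∀ y ∈ Y, ρ g₀ (ρ g₀ y - b • y) - a • (ρ g₀ y - b • y) ∈ Z) (hnc : ¬ IsComm ρ Z Y) :
    finrank K (eig ρ g₀ a Z Y) = finrank K (eig ρ g₀ b Z Y) := by
  refine le_antisymm (half_le hCH hS hab hne hq hnc)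
    (half_le hCH hS (by rw [mul_comm]; exact hab) hne.symm ?_ hnc)
  intro y hy
  rw [Half_swap]
  exact hq y hy

end Fermat.Agent.S15.Lin
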