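import Fermat.Agent.S15.Lin.Simple

/-!
# S15-LIN, file `Scalar`: if some `g₀` acts on `Y / Y'` by a scalar `c` with `c² ≠ χ g₀` then `Γ` acts
commutatively on `Y / Y'`.

All congruences are modulo `Y'`, for `y ∈ Y`.  `ρ g₀ z ≡ c z` for all `z ∈ Y`, hence `c ρ g₀⁻¹ y ≡ y`
(`smul_inv_sub_mem`).  So
`c t_{g₀ h} y = c ρ g₀ (ρ h y) + χ g₀ χ h ρ h⁻¹ (c ρ g₀⁻¹ y) ≡ c² ρ h y + χ g₀ χ h ρ h⁻¹ y` and
`χ g₀ t_h y = χ g₀ ρ h y + χ g₀ χ h ρ h⁻¹ y`.  Difference: `(c² - χ g₀) ρ h y ≡ s_h y`,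
`s_h := c t_{g₀ h} - χ g₀ t_h`, a central operator.  Then
`(c² - χ g₀) ρ g (ρ h y) ≡ ρ g (s_h y) = s_h (ρ g y) ≡ (c² - χ g₀) ρ h (ρ g y)`.
-/

set_option autoImplicit false

namespace Fermat.Agent.S15.Lin

variable {K V Γ : Type*} [Field K] [AddCommGroup V] [Module K V] [Group Γ]
variable {ρ : Representation K Γ V} {χ : Γ →* K}

/-- the key congruence. -/
theorem scalar_key {Y' Y : Submodule K V} (hY' : IsStab ρ Y') (hY : IsStab ρ Y) {g₀ : Γ} {c : K}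
    (h : ∀ y ∈ Y, ρ g₀ y - c • y ∈ Y') (g : Γ) {y : V} (hy : y ∈ Y) :
    (c * c - χ g₀) • ρ g y - (c • tOp ρ χ (g₀ * g) y - χ g₀ • tOp ρ χ g y) ∈ Y' := by
  have h1 : c • ρ g₀⁻¹ y - y ∈ Y' := smul_inv_sub_mem hY' hY hy (h y hy)
  have h2 : ρ g₀ (ρ g y) - c • ρ g y ∈ Y' := h _ (hY g y hy)
  have e : (c * c - χ g₀) • ρ g y - (c • tOp ρ χ (g₀ * g) y - χ g₀ • tOp ρ χ g y) =
      (-c) • (ρ g₀ (ρ g y) - c • ρ g y) + (-(χ g₀ * χ g)) • ρ g⁻¹ (c • ρ g₀⁻¹ y - y) := by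
    simp only [tOp_apply, mul_inv_rev, map_mul, map_sub, map_smul]
    module
  rw [e]
  exact Y'.add_mem (Y'.smul_mem _ h2) (Y'.smul_mem _ (hY' _ _ h1))

theorem isComm_of_scalar (hCH : CH ρ χ) {Y' Y : Submodule K V} (hY' : IsStab ρ Y')
    (hY : IsStab ρ Y) {g₀ : Γ} {c : K} (hc : c * c ≠ χ g₀) (h : ∀ y ∈ Y, ρ g₀ y - c • y ∈ Y') :
    IsComm ρ Y' Y := by
  intro g k y hy
  have hd : c * c - χ g₀ ≠ 0 := sub_ne_zero.2 hc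
  set s : Γ → V →ₗ[K] V := fun k => c • tOp ρ χ (g₀ * k) - χ g₀ • tOp ρ χ k with hs
  have hsc : ∀ k, IsCen ρ (s k) := fun k =>
    ((isCen_tOp hCH (g₀ * k)).smul c).sub ((isCen_tOp hCH k).smul (χ g₀))
  have key : ∀ (k : Γ) (z : V), z ∈ Y → (c * c - χ g₀) • ρ k z - s k z ∈ Y' := by
    intro k z hz
    exact scalar_key hY' hY h k hz
  -- `(c² - χ) ρ g ρ k y ≡ ρ g (s k y) = s k (ρ g y) ≡ (c² - χ) ρ k ρ g y`
  have h1 : ρ g ((c * c - χ g₀) • ρ k y - s k y) ∈ Y' := hY' g _ (key k y hy)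
  have h2 : (c * c - χ g₀) • ρ k (ρ g y) - s k (ρ g y) ∈ Y' := key k _ (hY g y hy)
  have e : ρ g (ρ k y) - ρ k (ρ g y) = (c * c - χ g₀)⁻¹ •
      (ρ g ((c * c - χ g₀) • ρ k y - s k y) - ((c * c - χ g₀) • ρ k (ρ g y) - s k (ρ g y))) := by
    rw [(hsc k).comm, map_sub, map_smul, sub_sub_sub_cancel_right, ← smul_sub, smul_smul,
      inv_mul_cancel₀ hd, one_smul]
  rw [e]
  exact Y'.smul_mem _ (Y'.sub_mem h1 h2)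

end Fermat.Agent.S15.Lin
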