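import Fermat.Agent.S15.Lin.Basic

/-!
# S15-LIN, file `Simple`: Schur's lemma and existence of simple subquotients
-/

set_option autoImplicit false

namespace Fermat.Agent.S15.Lin

variable {K V Γ : Type*} [Field K] [AddCommGroup V] [Module K V] [Group Γ]
variable {ρ : Representation K Γ V} {χ : Γ →* K}

/-- SCHUR.  `Z := {y ∈ Y | s y ∈ Y'}` is a stable subspace between `Y'` and `Y`. -/
theorem IsSimp.schur {Y' Y : Submodule K V} (hS : IsSimp ρ Y' Y) {s : V →ₗ[K] V}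
    (hs : IsCenOn ρ Y' Y s) : (∀ y ∈ Y, s y ∈ Y') ∨ (∀ y ∈ Y, s y ∈ Y' → y ∈ Y') := by
  have hZ : IsStab ρ (Y ⊓ Y'.comap s) := by
    intro g y hy
    refine ⟨hS.stab g y hy.1, ?_⟩
    have h1 := hs.comm g y hy.1
    have h2 : ρ g (s y) ∈ Y' := hS.stab' g _ hy.2
    have h3 := Y'.add_mem h1 h2
    rw [sub_add_cancel] at h3
    exact h3
  rcases hS.simple _ hZ (fun y hy => ⟨hS.lt.le hy, hs.map' y hy⟩) inf_le_left with h | h
  · right
    intro y hy hsy
    rw [← h]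
    exact ⟨hy, hsy⟩
  · left
    intro y hy
    rw [← h] at hy
    exact hy.2

/-- a product which is zero on a simple subquotient: one of the factors is zero. -/
theorem IsSimp.schur_mul {Y' Y : Submodule K V} (hS : IsSimp ρ Y' Y) {s t : V →ₗ[K] V}
    (hs : IsCenOn ρ Y' Y s) (ht : IsCenOn ρ Y' Y t) (h : ∀ y ∈ Y, s (t y) ∈ Y') :
    (∀ y ∈ Y, s y ∈ Y') ∨ (∀ y ∈ Y, t y ∈ Y') := by
  rcases hS.schur hs with h1 | h1
  · exact Or.inl h1
  · exact Or.inr fun y hy => h1 _ (ht.map y hy) (h y hy)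

/-- a locally nilpotent central operator is zero on a simple subquotient. -/
theorem IsSimp.nilpotent {Y' Y : Submodule K V} (hS : IsSimp ρ Y' Y) {s : V →ₗ[K] V}
    (hs : IsCenOn ρ Y' Y s) (h : ∀ y ∈ Y, ∃ n : ℕ, (s ^ n) y ∈ Y') : ∀ y ∈ Y, s y ∈ Y' := by
  rcases hS.schur hs with h1 | h1
  · exact h1
  · have hpow : ∀ (n : ℕ), ∀ y ∈ Y, (s ^ n) y ∈ Y := by
      intro n
      induction n with
      | zero => intro y hy; simpa using hy
      | succ n ih =>
        intro y hy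
        rw [pow_succ', Module.End.mul_apply]
        exact hs.map _ (ih y hy)
    have hall : ∀ (n : ℕ), ∀ y ∈ Y, (s ^ n) y ∈ Y' → y ∈ Y' := by
      intro n
      induction n with
      | zero => intro y _ hy'; simpa using hy'
      | succ n ih =>
        intro y hy hy'
        rw [pow_succ', Module.End.mul_apply] at hy'
        exact ih y hy (h1 _ (hpow n y hy) hy')
    intro y hy
    obtain ⟨n, hn⟩ := h y hy
    exact hs.map' y (hall n y hy hn)

/-- there is `y ∈ Y`, `y ∉ Y'`. -/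
theorem IsSimp.exists_not_mem {Y' Y : Submodule K V} (hS : IsSimp ρ Y' Y) : ∃ y ∈ Y, y ∉ Y' := by
  exact SetLike.exists_of_lt hS.lt

/-- a maximal proper stable subspace of `Y` containing `Y'` (choose one of maximal `finrank`). -/
theorem exists_isSimp_top [FiniteDimensional K V] {Y' Y : Submodule K V} (hY' : IsStab ρ Y')
    (hY : IsStab ρ Y) (h : Y' < Y) : ∃ Z, IsSimp ρ Z Y ∧ Y' ≤ Z := by
  obtain ⟨Z, ⟨hZs, hZ1, hZ2⟩, hmax⟩ := (wellFounded_gt (α := Submodule K V)).has_min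
    {Z | IsStab ρ Z ∧ Y' ≤ Z ∧ Z < Y} ⟨Y', hY', le_rfl, h⟩
  refine ⟨Z, ⟨hZs, hY, hZ2, ?_⟩, hZ1⟩
  intro W hW hZW hWY
  rcases eq_or_lt_of_le hWY with h1 | h1
  · exact Or.inr h1
  · left
    by_contra hne
    exact hmax W ⟨hW, hZ1.trans hZW, h1⟩ (lt_of_le_of_ne hZW (Ne.symm hne))

/-- a minimal stable subspace of `Y` properly containing `Y'`. -/
theorem exists_isSimp_bot [FiniteDimensional K V] {Y' Y : Submodule K V} (hY' : IsStab ρ Y')
    (hY : IsStab ρ Y) (h : Y' < Y) : ∃ Z, IsSimp ρ Y' Z ∧ Z ≤ Y := by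
  obtain ⟨Z, ⟨hZs, hZ1, hZ2⟩, hmin⟩ := (wellFounded_lt (α := Submodule K V)).has_min
    {Z | IsStab ρ Z ∧ Y' < Z ∧ Z ≤ Y} ⟨Y, hY, h, le_rfl⟩
  refine ⟨Z, ⟨hY', hZs, hZ1, ?_⟩, hZ2⟩
  intro W hW hYW hWZ
  rcases eq_or_lt_of_le hYW with h1 | h1
  · exact Or.inl h1.symm
  · right
    by_contra hne
    exact hmin W ⟨hW, h1, hWZ.trans hZ2⟩ (lt_of_le_of_ne hWZ hne)

/-- if `Γ` acts commutatively on `Y / Y'` then `ρ g - c` induces a `Γ`-endomorphism of `Y / Y'`. -/
theorem IsComm.isCenOn {Y' Y : Submodule K V} (hY' : IsStab ρ Y') (hY : IsStab ρ Y)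
    (hc : IsComm ρ Y' Y) (g : Γ) (c : K) : IsCenOn ρ Y' Y (ρ g - c • LinearMap.id) := by
  refine ⟨fun y hy => ?_, fun y hy => ?_, fun h y hy => ?_⟩
  · simp only [LinearMap.sub_apply, LinearMap.smul_apply, LinearMap.id_apply]
    exact Y.sub_mem (hY g y hy) (Y.smul_mem c hy)
  · simp only [LinearMap.sub_apply, LinearMap.smul_apply, LinearMap.id_apply]
    exact Y'.sub_mem (hY' g y hy) (Y'.smul_mem c hy)
  · simp only [LinearMap.sub_apply, LinearMap.smul_apply, LinearMap.id_apply, map_sub, map_smul]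
    have h1 := hc g h y hy
    have e : ρ g (ρ h y) - c • ρ h y - (ρ h (ρ g y) - c • ρ h y) = ρ g (ρ h y) - ρ h (ρ g y) := by
      abel
    rw [e]
    exact h1

/-- commutativity passes to smaller subquotients. -/
theorem IsComm.mono {Y' Y Z' Z : Submodule K V} (hc : IsComm ρ Y' Y) (h' : Y' ≤ Z') (h : Z ≤ Y) :
    IsComm ρ Z' Z := by
  exact fun g k y hy => h' (hc g k y (h hy))

theorem NoComm.mono {B Y B' Y' : Submodule K V} (h : NoComm ρ B Y) (hB : B ≤ B') (hY : Y' ≤ Y) :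
    NoComm ρ B' Y' := by
  exact fun Z' Z hS h1 h2 => h Z' Z hS (hB.trans h1) (h2.trans hY)

/-- a stable `Y` with commutative action modulo `B` and no commutative constituent is `≤ B`. -/
theorem le_of_isComm_of_noComm [FiniteDimensional K V] {B Y : Submodule K V} (hB : IsStab ρ B)
    (hY : IsStab ρ Y) (hBY : B ≤ Y) (hc : IsComm ρ B Y) (hn : NoComm ρ B Y) : Y ≤ B := by
  by_contra h
  obtain ⟨Z, hS, hZY⟩ := exists_isSimp_bot hB hY (lt_of_le_not_ge hBY h)
  exact hn B Z hS le_rfl hZY (hc.mono le_rfl hZY)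

end Fermat.Agent.S15.Lin
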